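import Fermat.Agent.HarmonicTheta.Polarization
import Fermat.Agent.SphereHecke.Decay

/-!
# A power saving for the eigenvalues

The eigenvalue of `p ^ r` grows at most like `p ^ (r (j / 2 + 3 / 4))` up to a polynomial in `r`,
while by the recursion it grows like the larger root; so both roots are at most
`p ^ (j / 2 + 3 / 4)`.
-/

set_option autoImplicit false
set_option linter.unusedSectionVars false
set_option linter.style.haveILetI false

noncomputable section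

open Filter Matrix Quaternion
open scoped Topology Quaternion
open FA.QuaternionJL FA.QuaternionJLSystems
open FA.SphereHecke (powEigen avgU avgU_eq unitMat)

namespace FA.HarmonicTheta

theorem powEigen_roots (p j : ℕ) {μ α β : ℝ} (hs : α + β = μ) (hm : α * β = (p : ℝ) ^ (j + 1)) :
    ∀ r, powEigen p j μ r * (α - β) = α ^ (r + 1) - β ^ (r + 1) := by
  intro r
  induction r using Nat.strong_induction_on with
  | _ r ih =>
    match r with
    | 0 => simp [powEigen]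
    | 1 => simp only [powEigen]; rw [← hs]; ring
    | r + 2 =>
      rw [powEigen, sub_mul, mul_assoc, mul_assoc, ih (r + 1) (by omega), ih r (by omega), ← hs,
        ← hm]
      ring

/-- **The larger root is bounded by the rate of growth.** -/
theorem root_le_of_powEigen_bound {p j : ℕ} (hp : 0 < p) {μ P C : ℝ} (hP : 0 < P)
    (hbP : (p : ℝ) ^ (j + 1) ≤ P ^ 2)
    (h : ∀ r, |powEigen p j μ r| ≤ C * ((r : ℝ) + 1) ^ 6 * P ^ r)
    (hdisc : 0 < μ ^ 2 - 4 * (p : ℝ) ^ (j + 1)) :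
    (|μ| + Real.sqrt (μ ^ 2 - 4 * (p : ℝ) ^ (j + 1))) / 2 ≤ P := by
  by_contra! hμ
  set b : ℝ := (p : ℝ) ^ (j + 1)
  have hb : 0 < b := by positivity
  set s : ℝ := Real.sqrt (μ ^ 2 - 4 * b) with hsdef
  have hs : s ^ 2 = μ ^ 2 - 4 * b := Real.sq_sqrt hdisc.le
  have hs0 : 0 < s := Real.sqrt_pos.2 hdisc
  obtain ⟨α, β, h1, h2, hα⟩ : ∃ α β : ℝ, α + β = μ ∧ α * β = b ∧ |α| = (|μ| + s) / 2 := by
    rcases le_or_gt 0 μ with h0 | h0
    · refine ⟨(μ + s) / 2, (μ - s) / 2, by ring, by linear_combination -hs / 4, ?_⟩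
      rw [abs_of_nonneg h0, abs_of_nonneg (by positivity)]
    · refine ⟨(μ - s) / 2, (μ + s) / 2, by ring, by linear_combination -hs / 4, ?_⟩
      rw [abs_of_neg h0, abs_of_nonpos (by linarith)]
      ring
  have hαP : P < |α| := by rw [hα]; exact hμ
  have hα0 : 0 < |α| := hP.trans hαP
  have hβ : |β| < |α| := by
    have he : |α| * |β| = b := by rw [← abs_mul, h2, abs_of_pos hb]
    nlinarith [mul_lt_mul_of_pos_right hαP hα0]
  have hd : 0 < |α - β| := abs_pos.2 (sub_ne_zero.2 fun e => by rw [e] at hβ; exact lt_irrefl _ hβ)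
  have key : ∀ r : ℕ, (|α| - |β|) / |α - β| ≤ C * (((r : ℝ) + 1) ^ 6 * (P / |α|) ^ r) := fun r => by
    have h3 : |α| ^ (r + 1) - |β| ^ (r + 1) ≤ |powEigen p j μ r| * |α - β| := by
      rw [← abs_mul, powEigen_roots p j h1 h2, ← abs_pow, ← abs_pow]
      exact abs_sub_abs_le_abs_sub _ _
    have h4 : |α| ^ r * (|α| - |β|) ≤ |α| ^ (r + 1) - |β| ^ (r + 1) := by
      rw [mul_sub, pow_succ, pow_succ]
      linarith [mul_le_mul_of_nonneg_right (pow_le_pow_left₀ (abs_nonneg β) hβ.le r) (abs_nonneg β)]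
    rw [div_le_iff₀ hd, div_pow]
    refine le_of_mul_le_mul_left ?_ (pow_pos hα0 r)
    refine (h4.trans (h3.trans (mul_le_mul_of_nonneg_right (h r) hd.le))).trans (le_of_eq ?_)
    field_simp
  have hlim : Tendsto (fun r : ℕ => C * (((r : ℝ) + 1) ^ 6 * (P / |α|) ^ r)) atTop (𝓝 0) := by
    have hq0 : 0 < P / |α| := div_pos hP hα0
    have hq1 : P / |α| < 1 := (div_lt_one hα0).2 hαP
    have := (tendsto_pow_const_mul_const_pow_of_abs_lt_one 6
      (by rwa [abs_of_pos hq0] : abs (P / |α|) < 1)).comp (tendsto_add_atTop_nat 1)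
    have := this.const_mul (C * (P / |α|)⁻¹)
    rw [mul_zero] at this
    refine this.congr fun r => ?_
    simp only [Function.comp_apply, pow_succ (P / |α|)]
    push_cast
    field_simp
  have := ge_of_tendsto' hlim key
  linarith [div_pos (sub_pos.2 hβ) hd]

/-- **Growth of the recursion.** -/
theorem abs_le_of_powEigen_bound {p j : ℕ} (hp : 0 < p) {μ P C : ℝ} (hP : 0 < P)
    (hbP : (p : ℝ) ^ (j + 1) ≤ P ^ 2)
    (h : ∀ r, |powEigen p j μ r| ≤ C * ((r : ℝ) + 1) ^ 6 * P ^ r) : |μ| ≤ 2 * P := by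
  by_contra! hμ
  have hdisc : 0 < μ ^ 2 - 4 * (p : ℝ) ^ (j + 1) := by nlinarith [sq_abs μ, abs_nonneg μ]
  have h1 := root_le_of_powEigen_bound hp hP hbP h hdisc
  linarith [Real.sqrt_pos.2 hdisc]

/-- The majorant at a prime power. -/
theorem majorant_pow_le {p : ℕ} (hp : 1 ≤ p) (j r : ℕ) :
    majorant j (p ^ r) ≤ (1 + Real.log p) ^ 6 * ((r : ℝ) + 1) ^ 6 * ((p : ℝ) ^ expo j) ^ r := by
  rw [majorant, Nat.cast_pow, ← Real.rpow_natCast (p : ℝ) r, ← Real.rpow_mul (Nat.cast_nonneg p),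
    mul_comm (r : ℝ), Real.rpow_mul (Nat.cast_nonneg p), Real.rpow_natCast,
    Real.rpow_natCast (p : ℝ) r, mul_comm (((p : ℝ) ^ expo j) ^ r), ← mul_pow]
  refine mul_le_mul_of_nonneg_right (pow_le_pow_left₀ ?_ ?_ 6) (by positivity)
  · exact add_nonneg zero_le_one (Real.log_nonneg (one_le_pow₀ (by exact_mod_cast hp)))
  · have hl := Real.log_natCast_nonneg p
    rw [Real.log_pow]
    nlinarith

theorem exists_avgU_bound {j : ℕ} (hj : 0 < j) (k l : Fin (j + 1)) :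
    ∃ C : ℝ, 0 ≤ C ∧ ∀ n : ℕ, 1 ≤ n → ‖avgU j n k l‖ ≤ C * majorant j n := by
  have h := entry_mem j 1 k l
  simp only [Matrix.mul_one] at h
  obtain ⟨C, hC0, hC⟩ := exists_isoPow_bound hj h
  refine ⟨‖(24 : ℂ)⁻¹ * (SphereHecke.rootC j k * (SphereHecke.rootC j l)⁻¹)‖ * C,
    mul_nonneg (norm_nonneg _) hC0, fun n hn => ?_⟩
  have e : avgU j n k l = (24 : ℂ)⁻¹ * (SphereHecke.rootC j k * (SphereHecke.rootC j l)⁻¹) *
      ∑ x ∈ normHz n, symMat j (toMat x) k l := by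
    rw [avgU_eq, Matrix.smul_apply, Matrix.sum_apply, smul_eq_mul, Finset.mul_sum, Finset.mul_sum]
    refine Finset.sum_congr rfl fun x _ => ?_
    simp only [SphereHecke.unitMat, SphereHecke.twist_apply]
    ring
  rw [e, norm_mul, mul_assoc]
  exact mul_le_mul_of_nonneg_left (hC n hn) (norm_nonneg _)

/-- **The growth of the eigenvalues of the powers of `p`.** -/
theorem exists_powEigen_bound {j p : ℕ} (hj : 0 < j) (hp : p.Prime) (h5 : 5 ≤ p) {μ : ℝ}
    {v : Fin (j + 1) → ℂ} (hv : v ≠ 0) (hinv : avgU j 1 *ᵥ v = v)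
    (h : avgU j p *ᵥ v = (μ : ℂ) • v) :
    ∃ D : ℝ, ∀ r : ℕ, |powEigen p j μ r| ≤ D * ((r : ℝ) + 1) ^ 6 * ((p : ℝ) ^ expo j) ^ r := by
  have hp1 : 1 ≤ p := hp.one_le
  choose C hC0 hC using exists_avgU_bound (j := j) hj
  obtain ⟨k, hk⟩ := Function.ne_iff.1 hv
  have hvk : 0 < ‖v k‖ := norm_pos_iff.2 hk
  refine ⟨(∑ l, C k l * ‖v l‖) * (1 + Real.log p) ^ 6 / ‖v k‖, fun r => ?_⟩
  have e := congrFun (SphereHecke.avgU_pow_mulVec hp h5 h r) k
  rw [hinv, Pi.smul_apply, smul_eq_mul] at e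
  have h1 : |powEigen p j μ r| * ‖v k‖ ≤
      ∑ l, C k l * ‖v l‖ * majorant j (p ^ r) := by
    rw [← Real.norm_eq_abs, ← Complex.norm_real, ← norm_mul, ← e]
    simp only [Matrix.mulVec, dotProduct]
    refine (norm_sum_le _ _).trans (Finset.sum_le_sum fun l _ => ?_)
    rw [norm_mul, mul_right_comm]
    exact mul_le_mul_of_nonneg_right (hC k l _ (Nat.one_le_pow _ _ hp.pos)) (norm_nonneg _)
  rw [← Finset.sum_mul] at h1
  refine le_of_mul_le_mul_right (h1.trans ?_) hvk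
  refine (mul_le_mul_of_nonneg_left (majorant_pow_le hp1 j r)
    (Finset.sum_nonneg fun l _ => mul_nonneg (hC0 k l) (norm_nonneg _))).trans (le_of_eq ?_)
  field_simp

theorem pow_succ_le_expo_sq {p : ℕ} (hp : 1 ≤ p) (j : ℕ) :
    (p : ℝ) ^ (j + 1) ≤ ((p : ℝ) ^ expo j) ^ 2 := by
  rw [← Real.rpow_natCast, ← Real.rpow_natCast ((p : ℝ) ^ expo j),
    ← Real.rpow_mul (Nat.cast_nonneg p)]
  refine Real.rpow_le_rpow_of_exponent_le (by exact_mod_cast hp) ?_
  rw [expo]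
  push_cast
  linarith

/-- **The bound on the eigenvalues.** -/
theorem norm_eigen_le {j p : ℕ} (hj : 0 < j) (hp : p.Prime) (h5 : 5 ≤ p) {μ : ℂ}
    {v : Fin (j + 1) → ℂ} (hv : v ≠ 0) (hinv : avgU j 1 *ᵥ v = v)
    (h : avgU j p *ᵥ v = μ • v) : ‖μ‖ ≤ 2 * (p : ℝ) ^ expo j := by
  have hreal : μ = ((μ.re : ℝ) : ℂ) := by
    have hH := SphereHecke.isHermitian_avgU j p
    have e : star v ⬝ᵥ (avgU j p *ᵥ v) = star (avgU j p *ᵥ v) ⬝ᵥ v := by
      rw [Matrix.star_mulVec, hH.eq, Matrix.dotProduct_mulVec]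
    rw [h, dotProduct_smul, StarModule.star_smul, smul_dotProduct, smul_eq_mul, smul_eq_mul] at e
    have hne : star v ⬝ᵥ v ≠ 0 := by
      rw [SphereHecke.quadratic_norm, Ne, Complex.ofReal_eq_zero]
      obtain ⟨i, hi⟩ := Function.ne_iff.1 hv
      exact (Finset.sum_pos' (fun i _ => Complex.normSq_nonneg _)
        ⟨i, Finset.mem_univ i, Complex.normSq_pos.2 hi⟩).ne'
    exact (Complex.conj_eq_iff_re.1 (mul_right_cancel₀ hne e).symm).symm
  rw [hreal] at h
  obtain ⟨D, hD⟩ := exists_powEigen_bound hj hp h5 hv hinv h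
  rw [hreal, Complex.norm_real, Real.norm_eq_abs]
  exact abs_le_of_powEigen_bound hp.pos (Real.rpow_pos_of_pos (Nat.cast_pos.2 hp.pos) _)
    (pow_succ_le_expo_sq hp.one_le j) hD

end FA.HarmonicTheta

end
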