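import Mathlib.NumberTheory.ModularForms.CongruenceSubgroups
import Mathlib.NumberTheory.ModularForms.SlashActions
import Mathlib.Analysis.Complex.UpperHalfPlane.MoebiusAction

/-!
# Invariance under `Γ₀(2)` from two translations

`Γ₀(2)` is generated by `-1`, the translation and the conjugate by `S` of the translation by `2`,
so a function of even weight with period one whose transform by `S` has period two is invariant.
-/

set_option autoImplicit false
set_option linter.style.haveILetI false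

noncomputable section

open Matrix CongruenceSubgroup ModularGroup
open scoped MatrixGroups ModularForm UpperHalfPlane

namespace FA.HarmonicTheta

theorem exists_centered (x : ℤ) {y : ℤ} (hy : y ≠ 0) : ∃ m : ℤ, 2 * |x + m * y| ≤ |y| := by
  have h1 := Int.emod_nonneg x hy
  have h2 := Int.emod_lt_abs x hy
  have h3 := Int.emod_add_mul_ediv x y
  by_cases h : 2 * (x % y) ≤ |y|
  · refine ⟨-(x / y), ?_⟩
    rw [show x + -(x / y) * y = x % y by linarith, abs_of_nonneg h1]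
    exact h
  · rcases lt_or_gt_of_ne hy with hn | hp
    · refine ⟨-(x / y) + 1, ?_⟩
      rw [show x + (-(x / y) + 1) * y = x % y + y by linarith]
      rw [abs_of_neg hn] at h h2 ⊢
      rw [abs_of_nonpos (by linarith)]
      linarith
    · refine ⟨-(x / y) - 1, ?_⟩
      rw [show x + (-(x / y) - 1) * y = x % y - y by linarith]
      rw [abs_of_pos hp] at h h2 ⊢
      rw [abs_of_nonpos (by linarith)]
      linarith

theorem coe_lower (n : ℤ) : ((S * T ^ n * S⁻¹ : SL(2, ℤ)) : Matrix (Fin 2) (Fin 2) ℤ) =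
    !![1, 0; -n, 1] := by
  rw [Matrix.SpecialLinearGroup.coe_mul, Matrix.SpecialLinearGroup.coe_mul, coe_T_zpow,
    Matrix.SpecialLinearGroup.coe_inv]
  ext i l
  fin_cases i <;> fin_cases l <;> simp [coe_S, Matrix.adjugate_fin_two, Matrix.mul_apply,
    Fin.sum_univ_two]

theorem even_lower_left {γ : SL(2, ℤ)} (h : γ ∈ Gamma0 2) : (2 : ℤ) ∣ γ 1 0 :=
  (ZMod.intCast_zmod_eq_zero_iff_dvd (γ 1 0) 2).1 (Gamma0_mem.1 h)

theorem det_two (γ : SL(2, ℤ)) : γ 0 0 * γ 1 1 - γ 0 1 * γ 1 0 = 1 := by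
  rw [← Matrix.det_fin_two]
  exact γ.2

/-- **The generators of `Γ₀(2)`.** -/
theorem gamma0_two_le {H : Subgroup SL(2, ℤ)} (hneg : -1 ∈ H) (hT : T ∈ H)
    (hL : ∀ l : ℤ, S * T ^ (2 * l) * S⁻¹ ∈ H) : Gamma0 2 ≤ H := by
  suffices ∀ (c : ℕ) (γ : SL(2, ℤ)), (γ 1 0).natAbs = c → (2 : ℤ) ∣ γ 1 0 → γ ∈ H from
    fun γ h => this _ γ rfl (even_lower_left h)
  intro c
  induction c using Nat.strong_induction_on with
  | _ c ih =>
    intro γ hc heven
    have hTz : ∀ m : ℤ, T ^ m ∈ H := fun m => H.zpow_mem hT m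
    have hdet := det_two γ
    by_cases h0 : γ 1 0 = 0
    · rw [h0, mul_zero, sub_zero] at hdet
      rcases Int.eq_one_or_neg_one_of_mul_eq_one' hdet with ⟨ha, hd⟩ | ⟨ha, hd⟩
      · rw [show γ = T ^ (γ 0 1) from Matrix.SpecialLinearGroup.ext _ _ fun i l => by
          rw [coe_T_zpow]
          fin_cases i <;> fin_cases l <;> simp [ha, hd, h0]]
        exact hTz _
      · rw [show γ = -1 * T ^ (-γ 0 1) from Matrix.SpecialLinearGroup.ext _ _ fun i l => by
          rw [Matrix.SpecialLinearGroup.coe_mul, Matrix.SpecialLinearGroup.coe_neg,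
            Matrix.SpecialLinearGroup.coe_one, neg_mul, one_mul, coe_T_zpow]
          fin_cases i <;> fin_cases l <;> simp [ha, hd, h0]]
        exact H.mul_mem hneg (hTz _)
    obtain ⟨m, hm⟩ := exists_centered (γ 0 0) h0
    set γ₁ : SL(2, ℤ) := T ^ m * γ with hγ₁
    have e00 : γ₁ 0 0 = γ 0 0 + m * γ 1 0 := by
      rw [hγ₁, Matrix.SpecialLinearGroup.coe_mul, coe_T_zpow]
      simp [Matrix.mul_apply, Fin.sum_univ_two]
    have e10 : γ₁ 1 0 = γ 1 0 := by
      rw [hγ₁, Matrix.SpecialLinearGroup.coe_mul, coe_T_zpow]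
      simp [Matrix.mul_apply, Fin.sum_univ_two]
    have ha0 : γ₁ 0 0 ≠ 0 := fun h => by
      have hd := det_two γ₁
      rw [h, e10, zero_mul, zero_sub] at hd
      have h1 : (2 : ℤ) ∣ 1 := ⟨-(γ₁ 0 1 * (γ 1 0 / 2)), by
        linear_combination -hd + (γ₁ 0 1) * Int.mul_ediv_cancel' heven⟩
      norm_num at h1
    have hlt : |γ₁ 0 0| < |γ 1 0| := by
      rw [e00] at ha0 ⊢
      linarith [abs_pos.2 ha0]
    obtain ⟨l, hl⟩ := exists_centered (γ₁ 1 0) (y := 2 * γ₁ 0 0) (by omega)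
    set γ₂ : SL(2, ℤ) := S * T ^ (2 * -l) * S⁻¹ * γ₁ with hγ₂
    have f10 : γ₂ 1 0 = γ₁ 1 0 + l * (2 * γ₁ 0 0) := by
      rw [hγ₂, Matrix.SpecialLinearGroup.coe_mul, coe_lower]
      simp [Matrix.mul_apply, Fin.sum_univ_two]
      ring
    have hsmall : (γ₂ 1 0).natAbs < c := by
      rw [← f10, abs_mul, abs_two] at hl
      rw [Int.abs_eq_natAbs, Int.abs_eq_natAbs] at hl hlt
      omega
    have h2 : γ₂ ∈ H := ih _ hsmall γ₂ rfl (by
      rw [f10, e10]
      exact dvd_add heven ((dvd_mul_right 2 _).mul_left _))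
    have h1 : γ₁ ∈ H := by
      have := H.mul_mem (H.inv_mem (hL (-l))) h2
      rwa [hγ₂, inv_mul_cancel_left] at this
    have := H.mul_mem (H.inv_mem (hTz m)) h1
    rwa [hγ₁, inv_mul_cancel_left] at this

/-- The subgroup fixing a function in weight `k`. -/
def slashStab (f : ℍ → ℂ) (k : ℤ) : Subgroup SL(2, ℤ) where
  carrier := {γ | f ∣[k] γ = f}
  one_mem' := SlashAction.slash_one k f
  mul_mem' {g h} hg hh := by
    show f ∣[k] (g * h) = f
    rw [SlashAction.slash_mul, (hg : f ∣[k] g = f), (hh : f ∣[k] h = f)]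
  inv_mem' {g} hg := by
    show f ∣[k] g⁻¹ = f
    conv_lhs => rw [← (hg : f ∣[k] g = f)]
    rw [← SlashAction.slash_mul, mul_inv_cancel, SlashAction.slash_one]

theorem slash_neg_one (f : ℍ → ℂ) {k : ℤ} (hk : Even k) : f ∣[k] (-1 : SL(2, ℤ)) = f := by
  funext z
  rw [ModularForm.SL_slash_apply, ModularGroup.SL_neg_smul, one_smul]
  simp [UpperHalfPlane.denom, hk.neg.neg_one_zpow]

/-- **Invariance under `Γ₀(2)`.** -/
theorem slash_gamma0_two {f : ℍ → ℂ} {k : ℤ} (hk : Even k) (hT : f ∣[k] T = f)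
    (hS : (f ∣[k] S) ∣[k] (T ^ (2 : ℤ)) = f ∣[k] S) {γ : SL(2, ℤ)} (hγ : γ ∈ Gamma0 2) :
    f ∣[k] γ = f := by
  refine gamma0_two_le (H := slashStab f k) (slash_neg_one f hk) hT (fun l => ?_) hγ
  have h2 : T ^ (2 * l) ∈ slashStab (f ∣[k] S) k := by
    rw [zpow_mul]
    exact Subgroup.zpow_mem (slashStab (f ∣[k] S) k) hS l
  show f ∣[k] (S * T ^ (2 * l) * S⁻¹) = f
  rw [SlashAction.slash_mul, SlashAction.slash_mul, (h2 : (f ∣[k] S) ∣[k] (T ^ (2 * l)) = _),
    ← SlashAction.slash_mul, mul_inv_cancel, SlashAction.slash_one]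

/-- Every element outside `Γ₀(2)` is a translate of `S`. -/
theorem exists_cusp_rep {γ : SL(2, ℤ)} (h : γ ∉ Gamma0 2) :
    ∃ g ∈ Gamma0 2, γ = g * S * T ^ (γ 1 1) := by
  refine ⟨γ * (T ^ (γ 1 1))⁻¹ * S⁻¹, ?_, by group⟩
  have hodd : ¬(2 : ℤ) ∣ γ 1 0 := fun hd =>
    h (Gamma0_mem.2 ((ZMod.intCast_zmod_eq_zero_iff_dvd (γ 1 0) 2).2 hd))
  rw [Gamma0_mem, ZMod.intCast_zmod_eq_zero_iff_dvd, ← zpow_neg,
    Matrix.SpecialLinearGroup.coe_mul, Matrix.SpecialLinearGroup.coe_mul, coe_T_zpow,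
    Matrix.SpecialLinearGroup.coe_inv, coe_S]
  simp [Matrix.adjugate_fin_two, Matrix.mul_apply, Fin.sum_univ_two]
  rw [show (-γ 1 1 + γ 1 0 * γ 1 1 : ℤ) = (γ 1 0 - 1) * γ 1 1 by ring]
  exact Dvd.dvd.mul_right (by omega) _

end FA.HarmonicTheta

end
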