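import Fermat.Agent.HarmonicTheta.Lattice
import Fermat.Agent.HarmonicTheta.Gamma
import Fermat.Agent.Poincare.Bound

/-!
# The harmonic theta series are cusp forms on `Γ₀(2)`

The inversion formula makes the transform by `S` the rotated series at `z / 2`, so both cusps are
zeros; the bound of Kloosterman and Weil then bounds the weighted sums over every norm.
-/

set_option autoImplicit false
set_option linter.unusedSectionVars false
set_option linter.style.haveILetI false

noncomputable section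

open UpperHalfPlane hiding I
open Complex Filter CongruenceSubgroup ModularGroup
open scoped Real Topology MatrixGroups ModularForm

namespace FA.HarmonicTheta

local notation "𝕢" => Function.Periodic.qParam

variable (a : Fin 4 → ℂ) (j : ℕ)

/-- The theta series. -/
def thetaFun (z : ℂ) : ℂ := ∑' n : ℕ, harmSum a j n * 𝕢 (1 : ℝ) z ^ n

theorem norm_qParam_pow (z : ℂ) (n : ℕ) :
    ‖𝕢 (1 : ℝ) z ^ n‖ = Real.exp (-(2 * π * z.im) * n) := by
  rw [norm_pow, Function.Periodic.norm_qParam, ← Real.exp_nat_mul]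
  ring_nf

theorem summable_majorant {b : ℝ} (hb : 0 < b) :
    Summable fun n : ℕ => ((n : ℝ) + 1) ^ (4 + j) * Real.exp (-b * n) := by
  have h := (summable_nat_add_iff 1).2 (Real.summable_pow_mul_exp_neg_nat_mul (4 + j) hb)
  refine (h.mul_left (Real.exp b)).congr fun n => ?_
  push_cast
  rw [mul_left_comm, ← Real.exp_add]
  ring_nf

theorem norm_thetaTerm_le (n : ℕ) {z : ℂ} {b : ℝ} (hz : b ≤ 2 * π * z.im) :
    ‖harmSum a j n * 𝕢 (1 : ℝ) z ^ n‖ ≤
      4096 * (∑ i, ‖a i‖) ^ j * (((n : ℝ) + 1) ^ (4 + j) * Real.exp (-b * n)) := by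
  rw [norm_mul, norm_qParam_pow, ← mul_assoc]
  refine mul_le_mul (norm_harmSum_le a j n) (Real.exp_le_exp.2 ?_) (Real.exp_pos _).le
    (by positivity)
  exact mul_le_mul_of_nonneg_right (neg_le_neg hz) (Nat.cast_nonneg n)

theorem summable_thetaTerm {z : ℂ} (hz : 0 < z.im) :
    Summable fun n : ℕ => harmSum a j n * 𝕢 (1 : ℝ) z ^ n :=
  Summable.of_norm_bounded ((summable_majorant j (b := 2 * π * z.im) (by positivity)).mul_left _)
    fun n => norm_thetaTerm_le a j n le_rfl

theorem hasSum_thetaFun (z : ℍ) :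
    HasSum (fun n : ℕ => harmSum a j n • 𝕢 (1 : ℝ) (z : ℂ) ^ n) (thetaFun a j z) := by
  simp only [smul_eq_mul]
  exact (summable_thetaTerm a j z.im_pos).hasSum

theorem differentiableAt_thetaFun {z : ℂ} (hz : 0 < z.im) :
    DifferentiableAt ℂ (thetaFun a j) z := by
  have hU : IsOpen {w : ℂ | z.im / 2 < w.im} := isOpen_lt continuous_const Complex.continuous_im
  refine (Complex.differentiableOn_tsum_of_summable_norm
    ((summable_majorant j (b := π * z.im) (by positivity)).mul_left _)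
    (fun n => ?_) hU fun n w (hw : z.im / 2 < w.im) =>
      norm_thetaTerm_le a j n (b := π * z.im) (by nlinarith [Real.pi_pos])).differentiableAt
    (hU.mem_nhds (show z.im / 2 < z.im by linarith))
  refine Differentiable.differentiableOn ?_
  unfold Function.Periodic.qParam
  fun_prop

theorem thetaFun_add_intCast (z : ℂ) (m : ℤ) : thetaFun a j (z + m) = thetaFun a j z := by
  refine tsum_congr fun n => ?_
  congr 2
  unfold Function.Periodic.qParam
  rw [Complex.ofReal_one, div_one, div_one, mul_add, Complex.exp_add,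
    show 2 * (π : ℂ) * I * m = m * (2 * π * I) by ring, Complex.exp_int_mul_two_pi_mul_I, mul_one]

theorem thetaFun_ray (y : ℝ) :
    thetaFun a j (y * I) = ∑' n : ℕ, harmSum a j n * (Real.exp (-(2 * π * y * n)) : ℂ) := by
  refine tsum_congr fun n => ?_
  congr 1
  unfold Function.Periodic.qParam
  rw [← Complex.exp_nat_mul, Complex.ofReal_one, div_one, Complex.ofReal_exp]
  congr 1
  push_cast
  linear_combination (2 * (π : ℂ) * y * n) * Complex.I_sq

variable {a}

theorem inversion_on_ray (ha : ∑ i, a i ^ 2 = 0) {y : ℝ} (hy : 0 < y) :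
    thetaFun a j (y * I) = -2 / (2 * ((y : ℂ) * I)) ^ (j + 2) *
      thetaFun (rotForm a) j (-1 / (2 * ((y : ℂ) * I))) := by
  have hyC : (y : ℂ) ≠ 0 := ofReal_ne_zero.2 hy.ne'
  have e : (-1 : ℂ) / (2 * ((y : ℂ) * I)) = (((2 * y)⁻¹ : ℝ) : ℂ) * I := by
    rw [div_eq_iff (mul_ne_zero two_ne_zero (mul_ne_zero hyC I_ne_zero))]
    push_cast
    field_simp
    rw [Complex.I_sq]
  have h := inversion_ray ha j (t := 2 * y) (by positivity)
  rw [e, thetaFun_ray, thetaFun_ray]
  refine (Eq.trans (tsum_congr fun n => ?_) (h.trans ?_))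
  · congr 3
    ring
  · congr 1
    · have hI : ((I : ℂ) ^ (j + 2)) * (-I) ^ j = -1 := by
        rw [pow_add, mul_right_comm, ← mul_pow, show I * -I = 1 by simp, one_pow, one_mul, I_sq]
      rw [show 2 * ((y : ℂ) * I) = ((2 * y : ℝ) : ℂ) * I by push_cast; ring, mul_pow]
      have ht : ((2 * y : ℝ) : ℂ) ^ (j + 2) ≠ 0 :=
        pow_ne_zero _ (ofReal_ne_zero.2 (by positivity))
      have hI0 : (I : ℂ) ^ (j + 2) ≠ 0 := pow_ne_zero _ I_ne_zero
      field_simp
      linear_combination hI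
    · refine tsum_congr fun n => ?_
      congr 3
      field_simp

/-- **The inversion.** -/
theorem thetaFun_inversion (ha : ∑ i, a i ^ 2 = 0) {z : ℂ} (hz : 0 < z.im) :
    thetaFun a j z = -2 / (2 * z) ^ (j + 2) * thetaFun (rotForm a) j (-1 / (2 * z)) := by
  set U : Set ℂ := {w | 0 < w.im}
  have hUo : IsOpen U := isOpen_lt continuous_const Complex.continuous_im
  have hne : ∀ w ∈ U, 2 * w ≠ 0 := fun w (hw : 0 < w.im) h => by
    rw [mul_eq_zero] at h
    rcases h with h | h
    · norm_num at h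
    · simp [h] at hw
  have him : ∀ w ∈ U, 0 < (-1 / (2 * w)).im := fun w (hw : 0 < w.im) => by
    rw [neg_div, one_div, Complex.neg_im, Complex.inv_im, neg_div, neg_neg]
    exact div_pos (by simpa using hw) (Complex.normSq_pos.2 (hne w hw))
  set F : ℂ → ℂ := fun w =>
    thetaFun a j w - -2 / (2 * w) ^ (j + 2) * thetaFun (rotForm a) j (-1 / (2 * w)) with hF
  have hd : DifferentiableOn ℂ F U := fun w hw => by
    have h2 : DifferentiableAt ℂ (fun v : ℂ => 2 * v) w := differentiableAt_id.const_mul 2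
    have hq : DifferentiableAt ℂ (fun v : ℂ => (-2 : ℂ) / (2 * v) ^ (j + 2)) w :=
      (differentiableAt_const _).div (h2.pow (j + 2)) (pow_ne_zero _ (hne w hw))
    have hm : DifferentiableAt ℂ (fun v : ℂ => (-1 : ℂ) / (2 * v)) w :=
      (differentiableAt_const _).div h2 (hne w hw)
    exact ((differentiableAt_thetaFun a j hw).sub
      (hq.mul (DifferentiableAt.comp w (differentiableAt_thetaFun (rotForm a) j (him w hw))
        hm))).differentiableWithinAt
  have hI : Tendsto (fun t : ℝ => (t : ℂ) * I) (𝓝[≠] 1) (𝓝[≠] I) := by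
    refine tendsto_nhdsWithin_iff.2 ⟨?_, eventually_nhdsWithin_of_forall fun t ht h => ht ?_⟩
    · have hc : Continuous fun t : ℝ => (t : ℂ) * I := by fun_prop
      simpa using (hc.tendsto 1).mono_left nhdsWithin_le_nhds
    · simpa using congrArg Complex.im (Set.mem_singleton_iff.1 h)
  have hfr : ∃ᶠ w in 𝓝[≠] I, F w = 0 := by
    refine hI.frequently (Eventually.frequently ?_)
    filter_upwards [nhdsWithin_le_nhds (lt_mem_nhds (zero_lt_one' ℝ))] with t ht
    exact sub_eq_zero.2 (inversion_on_ray j ha ht)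
  exact sub_eq_zero.1 ((hd.analyticOnNhd hUo).eqOn_zero_of_preconnected_of_frequently_eq_zero
    (convex_halfSpace_im_gt 0).isPreconnected (show I ∈ U by simp [U]) hfr hz)

variable (a) in
/-- The theta series on the half plane. -/
def thetaUp : ℍ → ℂ := fun z => thetaFun a j z

theorem thetaUp_slash_S (ha : ∑ i, a i ^ 2 = 0) :
    thetaUp a j ∣[((j + 2 : ℕ) : ℤ)] S =
      fun z : ℍ => -2 / (-2 : ℂ) ^ (j + 2) * thetaFun (rotForm a) j ((z : ℂ) / 2) := by
  funext z
  have hz : (z : ℂ) ≠ 0 := UpperHalfPlane.ne_zero z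
  rw [SlashInvariantForm.slash_S_apply]
  show thetaFun a j (-(z : ℂ))⁻¹ * (z : ℂ) ^ (-((j + 2 : ℕ) : ℤ)) = _
  have him : 0 < ((-(z : ℂ))⁻¹).im := by
    rw [Complex.inv_im, Complex.neg_im, neg_neg]
    exact div_pos z.im_pos (Complex.normSq_pos.2 (neg_ne_zero.2 hz))
  rw [thetaFun_inversion j ha him,
    show -1 / (2 * (-(z : ℂ))⁻¹) = (z : ℂ) / 2 by field_simp,
    show 2 * (-(z : ℂ))⁻¹ = -2 / (z : ℂ) by field_simp, div_pow, _root_.zpow_neg, zpow_natCast]
  have h2 : (-2 : ℂ) ^ (j + 2) ≠ 0 := pow_ne_zero _ (by norm_num)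
  field_simp

theorem slash_T_zpow (f : ℍ → ℂ) (k : ℤ) (m : ℤ) (z : ℍ) :
    (f ∣[k] (T ^ m)) z = f ((m : ℝ) +ᵥ z) := by
  rw [ModularForm.SL_slash_apply, UpperHalfPlane.modular_T_zpow_smul, ModularGroup.denom_apply,
    coe_T_zpow]
  simp

theorem thetaUp_slash_T (k : ℤ) : thetaUp a j ∣[k] T = thetaUp a j := by
  funext z
  rw [← zpow_one T, slash_T_zpow]
  show thetaFun a j _ = thetaFun a j _
  rw [UpperHalfPlane.coe_vadd, Complex.ofReal_intCast, add_comm, thetaFun_add_intCast]

theorem thetaUp_slash_gamma (ha : ∑ i, a i ^ 2 = 0) (hj : Even j) {γ : SL(2, ℤ)}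
    (hγ : γ ∈ Gamma0 2) : thetaUp a j ∣[((j + 2 : ℕ) : ℤ)] γ = thetaUp a j := by
  refine slash_gamma0_two (by exact_mod_cast hj.add even_two) (thetaUp_slash_T j _) ?_ hγ
  funext z
  rw [slash_T_zpow, thetaUp_slash_S j ha]
  show _ * thetaFun _ j _ = _ * thetaFun _ j _
  rw [UpperHalfPlane.coe_vadd, ← thetaFun_add_intCast (rotForm a) j ((z : ℂ) / 2) 1]
  congr 2
  push_cast
  ring

variable (a) in
theorem tendsto_thetaFun (hj : 0 < j) {ι : Type*} {l : Filter ι} {w : ι → ℂ}
    (hw : Tendsto (fun i => (w i).im) l atTop) :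
    Tendsto (fun i => thetaFun a j (w i)) l (𝓝 0) := by
  set M : ℕ → ℝ := fun n =>
    4096 * (∑ i, ‖a i‖) ^ j * (((n : ℝ) + 1) ^ (4 + j) * Real.exp (-(2 * π) * n)) with hM
  have hMs : Summable M := (summable_majorant j (by positivity)).mul_left _
  have hbd : ∀ z : ℂ, 1 ≤ z.im →
      ‖thetaFun a j z‖ ≤ (∑' n, M n) * Real.exp (-(2 * π) * (z.im - 1)) := fun z hz => by
    rw [← tsum_mul_right]
    refine tsum_of_norm_bounded (hMs.mul_right _).hasSum fun n => ?_
    rcases Nat.eq_zero_or_pos n with rfl | hn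
    · rw [harmSum_zero a hj, zero_mul, norm_zero]
      positivity
    refine (norm_thetaTerm_le a j n (z := z) le_rfl).trans ?_
    simp only [hM, mul_assoc]
    refine mul_le_mul_of_nonneg_left (mul_le_mul_of_nonneg_left
      (mul_le_mul_of_nonneg_left ?_ (by positivity)) (by positivity)) (by positivity)
    rw [← Real.exp_add, Real.exp_le_exp]
    have hn1 : (1 : ℝ) ≤ n := by exact_mod_cast hn
    nlinarith [Real.pi_pos, mul_nonneg (sub_nonneg.2 hn1) (sub_nonneg.2 hz)]
  refine squeeze_zero_norm' ((hw.eventually_ge_atTop 1).mono fun i hi => hbd _ hi) ?_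
  rw [← mul_zero (∑' n, M n)]
  refine Tendsto.const_mul _ (Real.tendsto_exp_atBot.comp ?_)
  exact (tendsto_atTop_add_const_right l (-1) hw).const_mul_atTop_of_neg (by
    linarith [Real.pi_pos])

theorem isZeroAtImInfty_slash (ha : ∑ i, a i ^ 2 = 0) (hj : Even j) (h0 : 0 < j) (γ : SL(2, ℤ)) :
    IsZeroAtImInfty (thetaUp a j ∣[((j + 2 : ℕ) : ℤ)] γ) := by
  have him : Tendsto (fun z : ℍ => (z : ℂ).im) atImInfty atTop := tendsto_comap
  by_cases hγ : γ ∈ Gamma0 2
  · rw [thetaUp_slash_gamma j ha hj hγ]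
    exact tendsto_thetaFun a j h0 him
  · obtain ⟨g, hg, e⟩ := exists_cusp_rep hγ
    rw [e, SlashAction.slash_mul, SlashAction.slash_mul, thetaUp_slash_gamma j ha hj hg]
    have h := (tendsto_thetaFun (rotForm a) j h0
      (w := fun z : ℍ => (((γ 1 1 : ℝ) +ᵥ z : ℍ) : ℂ) / 2) (by
        simp only [UpperHalfPlane.coe_vadd, Complex.div_ofNat_im, Complex.add_im, Complex.ofReal_im,
          zero_add]
        exact him.atTop_div_const two_pos)).const_mul (-2 / (-2 : ℂ) ^ (j + 2))
    rw [mul_zero] at h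
    refine h.congr fun z => ?_
    rw [slash_T_zpow, thetaUp_slash_S j ha]

/-- **The cusp form.** -/
def thetaCusp (ha : ∑ i, a i ^ 2 = 0) (hj : Even j) (h0 : 0 < j) :
    CuspForm (Gamma0 2) ((j + 2 : ℕ) : ℤ) where
  toFun := thetaUp a j
  slash_action_eq' A hA := by
    obtain ⟨γ, hγ, rfl⟩ := hA
    exact thetaUp_slash_gamma j ha hj hγ
  holo' := by
    rw [UpperHalfPlane.mdifferentiable_iff]
    refine DifferentiableOn.congr (f := thetaFun a j)
      (fun w hw => (differentiableAt_thetaFun a j hw).differentiableWithinAt)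
      fun w hw => by simp [thetaUp, ofComplex_apply_of_im_pos hw]
  zero_at_cusps' hc := by
    rw [Subgroup.IsArithmetic.isCusp_iff_isCusp_SL2Z] at hc
    exact (OnePoint.isZeroAt_iff_forall_SL2Z hc).2 fun γ _ => isZeroAtImInfty_slash j ha hj h0 γ

theorem coeff_thetaCusp (ha : ∑ i, a i ^ 2 = 0) (hj : Even j) (h0 : 0 < j) (n : ℕ) :
    (qExpansion 1 (thetaCusp j ha hj h0)).coeff n = harmSum a j n :=
  (ModularFormClass.qExpansion_coeff_unique (c := harmSum a j) (f := thetaCusp j ha hj h0)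
    one_pos (one_mem_strictPeriods_Gamma0 2) (hasSum_thetaFun a j) n).symm

/-- The exponent of the bound. -/
def expo (j : ℕ) : ℝ := (j : ℝ) / 2 + 3 / 4

/-- The majorant of the bound. -/
def majorant (j n : ℕ) : ℝ := (n : ℝ) ^ expo j * (1 + Real.log n) ^ 6

theorem majorant_nonneg (j n : ℕ) : 0 ≤ majorant j n :=
  mul_nonneg (Real.rpow_nonneg (Nat.cast_nonneg n) _)
    (pow_nonneg (add_nonneg zero_le_one (Real.log_natCast_nonneg n)) 6)

/-- **The bound on the harmonic sums.** -/
theorem exists_harmSum_bound (ha : ∑ i, a i ^ 2 = 0) (h0 : 0 < j) :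
    ∃ C : ℝ, ∀ n : ℕ, 1 ≤ n → ‖harmSum a j n‖ ≤ C * majorant j n := by
  rcases Nat.even_or_odd j with hj | hj
  · obtain ⟨C, hC⟩ := FA.Poincare.isKloostermanBounded
      (by omega : (3 : ℤ) ≤ ((j + 2 : ℕ) : ℤ)) (thetaCusp j ha hj h0)
    refine ⟨C, fun n hn => ?_⟩
    have h := hC n hn
    rw [coeff_thetaCusp] at h
    refine h.trans (le_of_eq ?_)
    rw [majorant, expo, mul_assoc]
    push_cast
    ring_nf
  · exact ⟨0, fun n _ => by rw [harmSum_odd a hj n, norm_zero, zero_mul]⟩

end FA.HarmonicTheta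

end
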