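import Fermat.Agent.HarmonicTheta.Poisson
import Fermat.Agent.QuaternionJLSystems.Division

/-!
# Hurwitz's order as a lattice, its dual and the inversion formula

The dual of Hurwitz's order is its multiple by `1 + i`, so the Gaussian sums weighted by powers of
an isotropic form at `t` are those of the rotated form at `2 / t`.
-/

set_option autoImplicit false
set_option linter.unusedSectionVars false
set_option linter.style.haveILetI false

noncomputable section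

open Quaternion Matrix
open scoped Real Quaternion
open FA.HurwitzQ (Hz ofCoords ofCoords_injective fours)
open FA.QuaternionJL FA.QuaternionJLSystems
open FA.HeckeFE (ofInt gauss)

namespace FA.HarmonicTheta

/-- The real coordinates of a quaternion. -/
def vecR (x : ℍ[ℚ]) : Fin 4 → ℝ := ![(x.re : ℝ), (x.imI : ℝ), (x.imJ : ℝ), (x.imK : ℝ)]

theorem sum_sq_vecR (x : ℍ[ℚ]) : ∑ i, vecR x i ^ 2 = ((normSq x : ℚ) : ℝ) := by
  rw [normSq_def', Fin.sum_univ_four]
  simp [vecR]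

/-- **The weighted sum over the quaternions of norm `n`.** -/
def harmSum (a : Fin 4 → ℂ) (j n : ℕ) : ℂ := ∑ x ∈ normHz n, ldot a (vecR x) ^ j

theorem card_normHz_le (n : ℕ) : (normHz n).card ≤ (8 * n + 1) ^ 4 := by
  rw [card_normHz]
  refine (Finset.card_filter_le _ _).trans (le_of_eq ?_)
  simp only [Finset.card_product, Int.card_Icc]
  rw [show ((((4 * n : ℕ) : ℤ) + 1 - -((4 * n : ℕ) : ℤ))).toNat = 8 * n + 1 by omega]
  ring

theorem abs_vecR_le {n : ℕ} {x : ℍ[ℚ]} (hx : x ∈ normHz n) (i : Fin 4) :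
    |vecR x i| ≤ (n : ℝ) + 1 := by
  have h := sum_sq_vecR x
  rw [(mem_normHz.1 hx).2, Rat.cast_natCast] at h
  have h1 : vecR x i ^ 2 ≤ (n : ℝ) :=
    h ▸ Finset.single_le_sum (f := fun i => vecR x i ^ 2) (fun _ _ => sq_nonneg _)
      (Finset.mem_univ i)
  rw [abs_le]
  constructor <;> nlinarith [sq_nonneg (vecR x i + 1), sq_nonneg (vecR x i - 1)]

theorem norm_harmSum_le (a : Fin 4 → ℂ) (j n : ℕ) :
    ‖harmSum a j n‖ ≤ 4096 * (∑ i, ‖a i‖) ^ j * ((n : ℝ) + 1) ^ (4 + j) := by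
  refine (norm_sum_le _ _).trans ?_
  have hterm : ∀ x ∈ normHz n, ‖ldot a (vecR x) ^ j‖ ≤ ((∑ i, ‖a i‖) * ((n : ℝ) + 1)) ^ j :=
    fun x hx => by
    rw [norm_pow]
    refine pow_le_pow_left₀ (norm_nonneg _) ((norm_ldot_le a _).trans ?_) j
    rw [Finset.sum_mul]
    exact Finset.sum_le_sum fun i _ => mul_le_mul_of_nonneg_left (abs_vecR_le hx i) (norm_nonneg _)
  refine (Finset.sum_le_sum hterm).trans ?_
  rw [Finset.sum_const, nsmul_eq_mul, mul_pow]
  have hc : ((normHz n).card : ℝ) ≤ 4096 * ((n : ℝ) + 1) ^ 4 := by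
    calc ((normHz n).card : ℝ) ≤ (8 * (n : ℝ) + 1) ^ 4 := by exact_mod_cast card_normHz_le n
      _ ≤ (8 * ((n : ℝ) + 1)) ^ 4 := pow_le_pow_left₀ (by positivity) (by linarith) 4
      _ = _ := by ring
  calc _ ≤ 4096 * ((n : ℝ) + 1) ^ 4 * ((∑ i, ‖a i‖) ^ j * ((n : ℝ) + 1) ^ j) :=
        mul_le_mul_of_nonneg_right hc (by positivity)
    _ = _ := by ring

theorem harmSum_zero (a : Fin 4 → ℂ) {j : ℕ} (hj : 0 < j) : harmSum a j 0 = 0 :=
  Finset.sum_eq_zero fun x hx => by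
    have h := (mem_normHz.1 hx).2
    rw [Nat.cast_zero, normSq_eq_zero] at h
    subst h
    rw [show ldot a (vecR 0) = 0 by simp [ldot, vecR, Fin.sum_univ_four], zero_pow hj.ne']

theorem harmSum_odd (a : Fin 4 → ℂ) {j : ℕ} (hj : Odd j) (n : ℕ) : harmSum a j n = 0 := by
  have e : harmSum a j n = -harmSum a j n := by
    rw [harmSum, ← Finset.sum_neg_distrib]
    refine Finset.sum_nbij' (fun x => -x) (fun x => -x) (fun x hx => ?_) (fun x hx => ?_)
      (fun x _ => neg_neg x) (fun x _ => neg_neg x) fun x _ => ?_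
    · obtain ⟨h1, h2⟩ := mem_normHz.1 hx
      exact mem_normHz.2 ⟨neg_mem h1, by rw [Quaternion.normSq_neg, h2]⟩
    · obtain ⟨h1, h2⟩ := mem_normHz.1 hx
      exact mem_normHz.2 ⟨neg_mem h1, by rw [Quaternion.normSq_neg, h2]⟩
    · rw [show ldot a (vecR (-x)) = -ldot a (vecR x) by
        simp [ldot, vecR, Fin.sum_univ_four]; ring, hj.neg_pow, neg_neg]
  linear_combination e / 2

/-- The basis matrix of the order. -/
def baseMat : Matrix (Fin 4) (Fin 4) ℝ :=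
  !![0, 0, 0, 1 / 2; 1, 0, 0, 1 / 2; 0, 1, 0, 1 / 2; 0, 0, 1, 1 / 2]

/-- Its inverse transpose. -/
def dualBase : Matrix (Fin 4) (Fin 4) ℝ :=
  !![-1, -1, -1, 2; 1, 0, 0, 0; 0, 1, 0, 0; 0, 0, 1, 0]

theorem dualBase_mul : dualBaseᵀ * baseMat = 1 := by
  ext i k
  fin_cases i <;> fin_cases k <;>
    simp [dualBase, baseMat, Matrix.mul_apply, Fin.sum_univ_four]

theorem det_baseMat : baseMat.det = -(1 / 2) := by
  simp [baseMat, Matrix.det_succ_row_zero, Fin.sum_univ_succ, Fin.succAbove]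
  norm_num

/-- The quaternion of integral coordinates. -/
def hz (v : Fin 4 → ℤ) : ℍ[ℚ] := ofCoords (v 0, v 1, v 2, v 3)

/-- Its norm. -/
def hzNorm (v : Fin 4 → ℤ) : ℕ :=
  (v 0 ^ 2 + v 1 ^ 2 + v 2 ^ 2 + (v 0 + v 1 + v 2) * v 3 + v 3 ^ 2).toNat

theorem normSq_hz (v : Fin 4 → ℤ) : normSq (hz v) = (hzNorm v : ℚ) := by
  have e : normSq (hz v) =
      ((v 0 ^ 2 + v 1 ^ 2 + v 2 ^ 2 + (v 0 + v 1 + v 2) * v 3 + v 3 ^ 2 : ℤ) : ℚ) := by
    rw [normSq_def']
    simp only [hz, ofCoords]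
    push_cast
    ring
  have h0 : (0 : ℤ) ≤ v 0 ^ 2 + v 1 ^ 2 + v 2 ^ 2 + (v 0 + v 1 + v 2) * v 3 + v 3 ^ 2 := by
    have h : (0 : ℚ) ≤ normSq (hz v) := normSq_nonneg
    rw [e] at h
    exact_mod_cast h
  have := congrArg (fun z : ℤ => (z : ℚ)) (Int.toNat_of_nonneg h0)
  rw [e, hzNorm, ← this, Int.cast_natCast]

theorem hz_injective : Function.Injective hz := fun v w h => by
  have := ofCoords_injective h
  simp only [Prod.mk.injEq] at this
  funext i
  fin_cases i <;> simp [this]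

theorem mem_normHz_iff (n : ℕ) (x : ℍ[ℚ]) :
    x ∈ normHz n ↔ ∃ v, hzNorm v = n ∧ hz v = x := by
  rw [mem_normHz]
  constructor
  · rintro ⟨⟨⟨a, b, c, d⟩, rfl⟩, h⟩
    refine ⟨![a, b, c, d], ?_, rfl⟩
    have h' := normSq_hz ![a, b, c, d]
    rw [show hz ![a, b, c, d] = ofCoords (a, b, c, d) from rfl, h] at h'
    exact_mod_cast h'.symm
  · rintro ⟨v, rfl, rfl⟩
    exact ⟨⟨_, rfl⟩, normSq_hz v⟩

theorem finite_fiber (n : ℕ) : {v : Fin 4 → ℤ | hzNorm v = n}.Finite :=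
  Set.Finite.of_finite_image ((normHz n).finite_toSet.subset (by
    rintro _ ⟨v, hv, rfl⟩
    exact (mem_normHz_iff n _).2 ⟨v, hv, rfl⟩)) hz_injective.injOn

/-- The sum over the lattice by the norms. -/
theorem tsum_fiber (F : ℍ[ℚ] → ℂ) (w : ℕ → ℂ)
    (hs : Summable fun v : Fin 4 → ℤ => F (hz v) * w (hzNorm v)) :
    ∑' v : Fin 4 → ℤ, F (hz v) * w (hzNorm v) = ∑' n : ℕ, (∑ x ∈ normHz n, F x) * w n := by
  have h := hs.hasSum
  rw [← (Equiv.sigmaFiberEquiv hzNorm).hasSum_iff] at h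
  refine (HasSum.tsum_eq (h.sigma fun n => ?_)).symm
  have : Fintype {v : Fin 4 → ℤ // hzNorm v = n} := (finite_fiber n).fintype
  convert hasSum_fintype _ using 1
  rw [Finset.sum_mul]
  symm
  refine Finset.sum_bij (fun v _ => hz v.1) (fun v _ => (mem_normHz_iff n _).2 ⟨v.1, v.2, rfl⟩)
    (fun v _ v' _ e => Subtype.ext (hz_injective e)) (fun x hx => ?_) fun v _ => ?_
  · obtain ⟨v, hv, rfl⟩ := (mem_normHz_iff n x).1 hx
    exact ⟨⟨v, hv⟩, Finset.mem_univ _, rfl⟩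
  · simp only [Function.comp_apply, Equiv.sigmaFiberEquiv_apply, v.2]

theorem baseMat_mulVec (v : Fin 4 → ℤ) : baseMat *ᵥ ofInt v = vecR (hz v) := by
  funext i
  fin_cases i <;>
    simp [baseMat, ofInt, Matrix.mulVec, dotProduct, Fin.sum_univ_four, vecR, hz, ofCoords] <;>
    ring

/-- The identification of the dual with the order. -/
def dualEquiv : (Fin 4 → ℤ) ≃ (Fin 4 → ℤ) where
  toFun v := ![v 0 + v 3, v 1 - v 2, v 1 + v 2 + v 3, v 1 + v 3]
  invFun m := ![m 0 + (m 1 + m 2 - 2 * m 3), m 3 - (-m 1 - m 2 + 2 * m 3), m 2 - m 3,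
    -m 1 - m 2 + 2 * m 3]
  left_inv v := by
    funext i
    fin_cases i <;> simp <;> ring
  right_inv m := by
    funext i
    fin_cases i <;> simp <;> ring

/-- The rotation of a form by `1 + i`. -/
def rotForm (a : Fin 4 → ℂ) : Fin 4 → ℂ := ![a 0 + a 1, -a 0 + a 1, a 2 + a 3, -a 2 + a 3]

theorem rotForm_sq {a : Fin 4 → ℂ} (ha : ∑ i, a i ^ 2 = 0) : ∑ i, rotForm a i ^ 2 = 0 := by
  rw [Fin.sum_univ_four] at ha ⊢
  simp [rotForm]
  linear_combination 2 * ha

theorem ldot_dual (a : Fin 4 → ℂ) (v : Fin 4 → ℤ) :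
    ldot a (dualBase *ᵥ ofInt (dualEquiv v)) = ldot (rotForm a) (vecR (hz v)) := by
  simp [ldot, rotForm, dualBase, dualEquiv, ofInt, Matrix.mulVec, dotProduct, Fin.sum_univ_four,
    vecR, hz, ofCoords]
  ring

theorem sum_sq_dual (v : Fin 4 → ℤ) :
    ∑ i, (dualBase *ᵥ ofInt (dualEquiv v)) i ^ 2 = 2 * (hzNorm v : ℝ) := by
  have h := sum_sq_vecR (hz v)
  rw [normSq_hz, Rat.cast_natCast] at h
  rw [← h]
  simp [dualBase, dualEquiv, ofInt, Matrix.mulVec, dotProduct, Fin.sum_univ_four, vecR, hz,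
    ofCoords]
  ring

theorem summable_moment {L N : Matrix (Fin 4) (Fin 4) ℝ} (h : Nᵀ * L = 1) (a : Fin 4 → ℂ) (j : ℕ) :
    Summable fun v : Fin 4 → ℤ => ldot a (L *ᵥ ofInt v) ^ j * (gauss L (ofInt v) : ℂ) := by
  have hs := (summable_double h a (r := 1) zero_le_one).comp_injective
    (i := fun v : Fin 4 → ℤ => (v, j)) fun _ _ e => congrArg Prod.fst e
  simp only [Function.comp_def] at hs
  refine (hs.mul_left (j.factorial : ℝ)).of_norm_bounded fun v => le_of_eq ?_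
  rw [norm_mul, norm_pow, Complex.norm_real, Real.norm_of_nonneg (HeckeFE.gauss_pos L _).le,
    one_pow]
  field_simp

theorem moments_base (a : Fin 4 → ℂ) (j : ℕ) {t : ℝ} (ht : 0 < t) :
    moments (√t • baseMat) a j =
      (√t : ℂ) ^ j * ∑' n : ℕ, harmSum a j n * (Real.exp (-(π * t * n)) : ℂ) := by
  have hNL : ((√t)⁻¹ • dualBase)ᵀ * (√t • baseMat) = 1 := by
    rw [Matrix.transpose_smul, Matrix.smul_mul, Matrix.mul_smul, smul_smul,
      inv_mul_cancel₀ (Real.sqrt_pos.2 ht).ne', one_smul, dualBase_mul]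
  have hg : ∀ v, gauss (√t • baseMat) (ofInt v) = Real.exp (-(π * t * hzNorm v)) := fun v => by
    have h := sum_sq_vecR (hz v)
    rw [normSq_hz, Rat.cast_natCast] at h
    rw [gauss, ← h]
    simp only [Matrix.smul_mulVec, baseMat_mulVec, Pi.smul_apply, smul_eq_mul, mul_pow,
      Real.sq_sqrt ht.le, ← Finset.mul_sum]
    ring_nf
  have hl : ∀ v, ldot a ((√t • baseMat) *ᵥ ofInt v) = (√t : ℂ) * ldot a (vecR (hz v)) := fun v => by
    simp only [ldot, Matrix.smul_mulVec, baseMat_mulVec, Pi.smul_apply, smul_eq_mul, Finset.mul_sum]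
    exact Finset.sum_congr rfl fun i _ => by push_cast; ring
  have hs := summable_moment hNL a j
  simp only [hl, hg, mul_pow, mul_assoc] at hs
  rw [moments]
  simp only [hl, hg, mul_pow, mul_assoc, tsum_mul_left]
  congr 1
  exact tsum_fiber (fun x => ldot a (vecR x) ^ j) (fun n => (Real.exp (-(π * (t * n))) : ℂ))
    ((summable_mul_left_iff (pow_ne_zero j (Complex.ofReal_ne_zero.2
      (Real.sqrt_pos.2 ht).ne'))).1 hs)

theorem moments_dual (a : Fin 4 → ℂ) (j : ℕ) {t : ℝ} (ht : 0 < t) :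
    moments ((√t)⁻¹ • dualBase) a j =
      ((√t)⁻¹ : ℂ) ^ j * ∑' n : ℕ, harmSum (rotForm a) j n *
        (Real.exp (-(π * (2 * (n / t)))) : ℂ) := by
  have hNL : (√t • baseMat)ᵀ * ((√t)⁻¹ • dualBase) = 1 := by
    have := congrArg Matrix.transpose (show ((√t)⁻¹ • dualBase)ᵀ * (√t • baseMat) = 1 by
      rw [Matrix.transpose_smul, Matrix.smul_mul, Matrix.mul_smul, smul_smul,
        inv_mul_cancel₀ (Real.sqrt_pos.2 ht).ne', one_smul, dualBase_mul])
    rwa [Matrix.transpose_mul, Matrix.transpose_transpose, Matrix.transpose_one] at this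
  have hg : ∀ v, gauss ((√t)⁻¹ • dualBase) (ofInt (dualEquiv v)) =
      Real.exp (-(π * (2 * (hzNorm v / t)))) := fun v => by
    rw [gauss]
    simp only [Matrix.smul_mulVec, Pi.smul_apply, smul_eq_mul, mul_pow, inv_pow,
      Real.sq_sqrt ht.le, ← Finset.mul_sum, sum_sq_dual]
    congr 1
    field_simp
  have hl : ∀ v, ldot a (((√t)⁻¹ • dualBase) *ᵥ ofInt (dualEquiv v)) =
      ((√t)⁻¹ : ℂ) * ldot (rotForm a) (vecR (hz v)) := fun v => by
    rw [← ldot_dual]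
    simp only [ldot, Matrix.smul_mulVec, Pi.smul_apply, smul_eq_mul, Finset.mul_sum]
    exact Finset.sum_congr rfl fun i _ => by push_cast; ring
  have hs := (dualEquiv.summable_iff).2 (summable_moment hNL a j)
  simp only [Function.comp_def, hl, hg, mul_pow, mul_assoc] at hs
  rw [moments, ← dualEquiv.tsum_eq fun m : Fin 4 → ℤ =>
    ldot a (((√t)⁻¹ • dualBase) *ᵥ ofInt m) ^ j * (gauss ((√t)⁻¹ • dualBase) (ofInt m) : ℂ)]
  simp only [hl, hg, mul_pow, mul_assoc, tsum_mul_left]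
  congr 1
  exact tsum_fiber (fun x => ldot (rotForm a) (vecR x) ^ j)
    (fun n => (Real.exp (-(π * (2 * (n / t)))) : ℂ))
    ((summable_mul_left_iff (pow_ne_zero j (inv_ne_zero (Complex.ofReal_ne_zero.2
      (Real.sqrt_pos.2 ht).ne')))).1 hs)

/-- **The inversion on the imaginary axis.** -/
theorem inversion_ray {a : Fin 4 → ℂ} (ha : ∑ i, a i ^ 2 = 0) (j : ℕ) {t : ℝ} (ht : 0 < t) :
    ∑' n : ℕ, harmSum a j n * (Real.exp (-(π * t * n)) : ℂ) =
      2 * (-Complex.I) ^ j / (t : ℂ) ^ (j + 2) *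
        ∑' n : ℕ, harmSum (rotForm a) j n * (Real.exp (-(π * (2 * (n / t)))) : ℂ) := by
  have h := moments_poisson (L := √t • baseMat) (N := (√t)⁻¹ • dualBase) (by
    rw [Matrix.transpose_smul, Matrix.smul_mul, Matrix.mul_smul, smul_smul,
      inv_mul_cancel₀ (Real.sqrt_pos.2 ht).ne', one_smul, dualBase_mul]) ha j
  rw [moments_base a j ht, moments_dual a j ht, Matrix.det_smul, det_baseMat, Fintype.card_fin,
    show √t ^ 4 = t ^ 2 by rw [show (4 : ℕ) = 2 * 2 from rfl, pow_mul, Real.sq_sqrt ht.le],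
    abs_mul, abs_neg, abs_of_pos (by positivity : (0 : ℝ) < t ^ 2),
    abs_of_pos (by norm_num : (0 : ℝ) < 1 / 2)] at h
  have hs : (√t : ℂ) ≠ 0 := Complex.ofReal_ne_zero.2 (Real.sqrt_pos.2 ht).ne'
  have hs2 : (√t : ℂ) ^ j * (√t : ℂ) ^ j = (t : ℂ) ^ j := by
    rw [← mul_pow, ← Complex.ofReal_mul, Real.mul_self_sqrt ht.le]
  have htC : (t : ℂ) ≠ 0 := Complex.ofReal_ne_zero.2 ht.ne'
  refine mul_left_cancel₀ (pow_ne_zero j hs) (h.trans ?_)
  push_cast
  rw [pow_add, ← hs2, inv_pow]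
  field_simp

end FA.HarmonicTheta

end
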