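import Fermat.Agent.HeckeCharFE.Poisson

/-!
# Poisson summation with powers of an isotropic linear form

For a complex linear form `a` with `∑ a_i ^ 2 = 0` the Fourier transform of
`exp (-π |y|² + s a y)` is `exp (-π |ξ|² - i s a ξ)`; comparing the powers of `s` gives Poisson
summation for `(a y) ^ j exp (-π |y|²)` on every lattice.
-/

set_option autoImplicit false
set_option linter.style.haveILetI false

noncomputable section

open MeasureTheory Complex Matrix Filter UnitAddTorus
open scoped Real Topology Nat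
open FA.HeckeFE FA.HeckeCharFE

namespace FA.HarmonicTheta

local instance instMeasureSpaceUnit : MeasureSpace UnitAddCircle := ⟨AddCircle.haarAddCircle⟩

local instance instHaarUnit : Measure.IsAddHaarMeasure (volume : Measure UnitAddCircle) :=
  inferInstanceAs (Measure.IsAddHaarMeasure AddCircle.haarAddCircle)

local instance instProbUnit : IsProbabilityMeasure (volume : Measure UnitAddCircle) :=
  inferInstanceAs (IsProbabilityMeasure AddCircle.haarAddCircle)

/-- A power series vanishing on the disc has no coefficients. -/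
theorem eq_zero_of_hasSum_pow {c : ℕ → ℂ} (hs : Summable fun j => ‖c j‖)
    (h : ∀ s : ℂ, ‖s‖ ≤ 1 → HasSum (fun j => c j * s ^ j) 0) (j : ℕ) : c j = 0 := by
  induction j using Nat.strong_induction_on with
  | _ j ih =>
    set g : ℂ → ℂ := fun s => ∑' i, c (i + j) * s ^ i
    have hg : ContinuousAt g 0 := by
      refine (continuousOn_tsum (fun i => by fun_prop) ((summable_nat_add_iff j).2 hs)
        fun i s hs' => ?_).continuousAt (Metric.closedBall_mem_nhds (0 : ℂ) one_pos)
      rw [norm_mul, norm_pow]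
      rw [mem_closedBall_zero_iff] at hs'
      exact mul_le_of_le_one_right (norm_nonneg _) (pow_le_one₀ (norm_nonneg _) hs')
    have hz : ∀ᶠ s in 𝓝[≠] (0 : ℂ), g s = 0 := by
      filter_upwards [self_mem_nhdsWithin,
        nhdsWithin_le_nhds (Metric.closedBall_mem_nhds (0 : ℂ) one_pos)] with s hs0 hs1
      have hhs := (hasSum_nat_add_iff' j).2 (h s (mem_closedBall_zero_iff.1 hs1))
      rw [Finset.sum_eq_zero (fun i hi => by rw [ih i (Finset.mem_range.1 hi), zero_mul]),
        sub_zero] at hhs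
      have h2 : HasSum (fun i => c (i + j) * s ^ i) 0 := by
        refine (hasSum_mul_left_iff (pow_ne_zero j hs0)).1 ?_
        rw [mul_zero]
        exact hhs.congr_fun fun i => by rw [pow_add]; ring
      exact h2.tsum_eq
    have h0 : g 0 = 0 := tendsto_nhds_unique (hg.tendsto.mono_left nhdsWithin_le_nhds)
      (tendsto_const_nhds.congr' (hz.mono fun s hs => hs.symm))
    simp only [g] at h0
    rw [tsum_eq_single 0 fun i hi => by rw [zero_pow hi, mul_zero]] at h0
    simpa using h0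

variable {ι : Type*} [Fintype ι]

/-- A complex linear form. -/
def ldot (a : ι → ℂ) (y : ι → ℝ) : ℂ := ∑ i, a i * (y i : ℂ)

theorem norm_ldot_le (a : ι → ℂ) (y : ι → ℝ) :
    ‖ldot a y‖ ≤ ∑ i, ‖a i‖ * |y i| :=
  (norm_sum_le _ _).trans (le_of_eq (Finset.sum_congr rfl fun i _ => by
    rw [norm_mul, norm_real, Real.norm_eq_abs]))

theorem exp_norm_le (a : ι → ℂ) (r : ℝ) (y : ι → ℝ) (hr : 0 ≤ r) :
    Real.exp (r * ‖ldot a y‖) * Real.exp (-π * ∑ i, y i ^ 2) ≤
      Real.exp (r ^ 2 * (∑ i, ‖a i‖ ^ 2) / (2 * π)) * Real.exp (-(π / 2) * ∑ i, y i ^ 2) := by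
  rw [← Real.exp_add, ← Real.exp_add, Real.exp_le_exp]
  have h1 := mul_le_mul_of_nonneg_left (norm_ldot_le a y) hr
  have h2 : r * ∑ i, ‖a i‖ * |y i| ≤
      r ^ 2 * (∑ i, ‖a i‖ ^ 2) / (2 * π) + π / 2 * ∑ i, y i ^ 2 := by
    rw [Finset.mul_sum, Finset.mul_sum, Finset.mul_sum, Finset.sum_div, ← Finset.sum_add_distrib]
    refine Finset.sum_le_sum fun i _ => ?_
    rw [← sq_abs (y i), div_add' _ _ _ (by positivity), le_div_iff₀ (by positivity)]
    nlinarith [sq_nonneg (r * ‖a i‖ - π * |y i|)]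
  linarith

/-- The Gaussian times an exponential. -/
def expGauss (L : Matrix ι ι ℝ) (a : ι → ℂ) (s : ℂ) (x : ι → ℝ) : ℂ :=
  cexp (s * ldot a (L *ᵥ x)) * (gauss L x : ℂ)

theorem continuous_expGauss (L : Matrix ι ι ℝ) (a : ι → ℂ) (s : ℂ) :
    Continuous (expGauss L a s) := by
  refine Continuous.mul ?_ (continuous_ofReal.comp (continuous_gauss L))
  unfold ldot Matrix.mulVec dotProduct
  fun_prop

theorem gauss_half (L : Matrix ι ι ℝ) (x : ι → ℝ) :
    gauss ((√2)⁻¹ • L) x = Real.exp (-(π / 2) * ∑ i, (L *ᵥ x) i ^ 2) := by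
  rw [gauss]
  congr 1
  simp only [Matrix.smul_mulVec, Pi.smul_apply, smul_eq_mul, mul_pow, inv_pow,
    Real.sq_sqrt zero_le_two, ← Finset.mul_sum]
  ring

/-- The constant of the domination. -/
def domConst (a : ι → ℂ) (r : ℝ) : ℝ := Real.exp (r ^ 2 * (∑ i, ‖a i‖ ^ 2) / (2 * π))

theorem exp_norm_gauss_le (L : Matrix ι ι ℝ) (a : ι → ℂ) (r : ℝ) (hr : 0 ≤ r) (x : ι → ℝ) :
    Real.exp (r * ‖ldot a (L *ᵥ x)‖) * gauss L x ≤ domConst a r * gauss ((√2)⁻¹ • L) x := by
  rw [gauss_half, gauss]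
  exact exp_norm_le a r _ hr

theorem norm_expGauss_le (L : Matrix ι ι ℝ) (a : ι → ℂ) (s : ℂ) (x : ι → ℝ) :
    ‖expGauss L a s x‖ ≤ domConst a ‖s‖ * gauss ((√2)⁻¹ • L) x := by
  refine le_trans ?_ (exp_norm_gauss_le L a ‖s‖ (norm_nonneg s) x)
  rw [expGauss, norm_mul, norm_real, Real.norm_eq_abs, abs_of_pos (gauss_pos L x), norm_exp]
  refine mul_le_mul_of_nonneg_right (Real.exp_le_exp.2 ?_) (gauss_pos L x).le
  exact (re_le_norm _).trans (norm_mul_le _ _)

variable [DecidableEq ι] {L N : Matrix ι ι ℝ}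

theorem summable_dom (h : Nᵀ * L = 1) (a : ι → ℂ) (r : ℝ) :
    Summable fun v : ι → ℤ => domConst a r * gauss ((√2)⁻¹ • L) (ofInt v) :=
  (summable_gauss (inv_transpose_smul h)).mul_left _

/-- The Fourier integral. -/
theorem integral_expGauss (h : Nᵀ * L = 1) {a : ι → ℂ} (ha : ∑ i, a i ^ 2 = 0) (s : ℂ)
    (m : ι → ℤ) :
    ∫ x : ι → ℝ, mFourier (-m) (toTorus x) * expGauss L a s x =
      ((|L.det|⁻¹ : ℝ) : ℂ) * expGauss N a (-I * s) (ofInt m) := by
  have hdet : L.det ≠ 0 := fun h0 => by simpa [h0] using congrArg Matrix.det h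
  set b : ι → ℝ := N *ᵥ ofInt m with hb
  set c : ι → ℂ := fun i => s * a i - 2 * π * I * (b i : ℂ) with hc
  set g : (ι → ℝ) → ℂ := fun u => ∏ i, lineFun false (c i) (u i) with hgdef
  have hg : ∀ x, mFourier (-m) (toTorus x) * expGauss L a s x = g (L *ᵥ x) := fun x => by
    have hlin : ∑ i, b i * (L *ᵥ x) i = ∑ i, (m i : ℝ) * x i := by
      show (N *ᵥ ofInt m) ⬝ᵥ (L *ᵥ x) = ofInt m ⬝ᵥ x
      rw [← Matrix.vecMul_transpose, ← Matrix.dotProduct_mulVec, Matrix.mulVec_mulVec, h,
        Matrix.one_mulVec]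
    simp only [hgdef, lineFun, Bool.false_eq_true, if_false, one_mul]
    rw [← Complex.exp_sum, mFourier_toTorus, expGauss, gauss, Complex.ofReal_exp, ← Complex.exp_add,
      ← Complex.exp_add]
    congr 1
    have hlin' := congrArg (fun r : ℝ => (r : ℂ)) hlin
    push_cast at hlin' ⊢
    simp only [c, ldot, Pi.neg_apply, Int.cast_neg, neg_mul, sub_mul, mul_assoc,
      Finset.sum_add_distrib, Finset.sum_sub_distrib, Finset.sum_neg_distrib, ← Finset.mul_sum,
      hlin']
    ring
  simp only [hg]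
  have hmeas : Measurable fun x : ι → ℝ => L *ᵥ x := by
    unfold Matrix.mulVec dotProduct; fun_prop
  have hmap := Real.map_matrix_volume_pi_eq_smul_volume_pi hdet
  have hcont : Continuous g :=
    continuous_finsetProd _ fun i _ => (continuous_lineFun _ _).comp (continuous_apply i)
  rw [← integral_map hmeas.aemeasurable hcont.aestronglyMeasurable,
    show (fun x => L *ᵥ x) = ⇑(Matrix.toLin' L) from rfl, hmap, integral_smul_measure,
    ENNReal.toReal_ofReal (abs_nonneg _), abs_inv, Complex.real_smul]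
  congr 1
  simp only [hgdef]
  rw [integral_fintype_prod_volume_eq_prod (f := fun i => lineFun false (c i))]
  simp only [integral_lineFun, Bool.false_eq_true, if_false, one_mul]
  rw [← Complex.exp_sum, expGauss, gauss, Complex.ofReal_exp, ← Complex.exp_add]
  congr 1
  have hpi : (π : ℂ) ≠ 0 := ofReal_ne_zero.2 Real.pi_ne_zero
  have e : ∀ i, c i ^ 2 / (4 * π) =
      s ^ 2 / (4 * π) * a i ^ 2 + -I * s * (a i * (b i : ℂ)) + -(π : ℂ) * (b i : ℂ) ^ 2 :=
    fun i => by
    rw [hc]
    field_simp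
    linear_combination (4 * (π : ℂ) ^ 2 * (b i : ℂ) ^ 2) * Complex.I_sq
  simp only [e, Finset.sum_add_distrib, ← Finset.mul_sum, ha, ldot, ← hb]
  push_cast
  ring

/-- **Poisson summation with an exponential.** -/
theorem expGauss_poisson (h : Nᵀ * L = 1) {a : ι → ℂ} (ha : ∑ i, a i ^ 2 = 0) (s : ℂ) :
    ∑' v : ι → ℤ, expGauss L a s (ofInt v) =
      ((|L.det|⁻¹ : ℝ) : ℂ) * ∑' m : ι → ℤ, expGauss N a (-I * s) (ofInt m) := by
  have hN : Lᵀ * N = 1 := by
    have := congrArg Matrix.transpose h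
    rwa [Matrix.transpose_mul, Matrix.transpose_transpose, Matrix.transpose_one] at this
  set K : ℝ := domConst a ‖s‖
  have hK : 0 < K := Real.exp_pos _
  have hKC : (K : ℂ) ≠ 0 := ofReal_ne_zero.2 hK.ne'
  have hp := poisson_shift (H := fun x => (K : ℂ)⁻¹ * expGauss L a s x) (inv_transpose_smul h)
    (continuous_const.mul (continuous_expGauss L a s)) (fun x => by
      rw [norm_mul, norm_inv, norm_real, Real.norm_of_nonneg hK.le, inv_mul_le_iff₀ hK]
      exact norm_expGauss_le L a s x)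
    (c := fun m => (K : ℂ)⁻¹ * (((|L.det|⁻¹ : ℝ) : ℂ) * expGauss N a (-I * s) (ofInt m)))
    (fun m => by
      rw [← integral_expGauss h ha, ← integral_const_mul]
      exact integral_congr_ae (Filter.Eventually.of_forall fun x => by ring))
    ((((summable_dom hN a ‖-I * s‖).of_norm_bounded
      fun m => norm_expGauss_le N a (-I * s) (ofInt m)).mul_left _).mul_left _) 0
  simp only [zero_add, tsum_mul_left] at hp
  have h1 : ∀ m : ι → ℤ, mFourier m (toTorus (0 : ι → ℝ)) = 1 := fun m => by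
    rw [mFourier_toTorus]
    simp
  simp only [h1, mul_one, tsum_mul_left] at hp
  exact mul_left_cancel₀ (inv_ne_zero hKC) hp

/-- The moments of the linear form against the Gaussian. -/
def moments (L : Matrix ι ι ℝ) (a : ι → ℂ) (j : ℕ) : ℂ :=
  ∑' v : ι → ℤ, ldot a (L *ᵥ ofInt v) ^ j * (gauss L (ofInt v) : ℂ)

theorem summable_double (h : Nᵀ * L = 1) (a : ι → ℂ) {r : ℝ} (hr : 0 ≤ r) :
    Summable fun q : (ι → ℤ) × ℕ =>
      r ^ q.2 / (q.2)! * ‖ldot a (L *ᵥ ofInt q.1)‖ ^ q.2 * gauss L (ofInt q.1) := by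
  have hj : ∀ v : ι → ℤ, HasSum
      (fun j : ℕ => r ^ j / j ! * ‖ldot a (L *ᵥ ofInt v)‖ ^ j * gauss L (ofInt v))
      (Real.exp (r * ‖ldot a (L *ᵥ ofInt v)‖) * gauss L (ofInt v)) := fun v => by
    refine HasSum.mul_right _ ?_
    rw [Real.exp_eq_exp_ℝ]
    refine (NormedSpace.expSeries_div_hasSum_exp _).congr_fun fun j => ?_
    rw [mul_pow]
    ring
  refine (summable_prod_of_nonneg fun q => mul_nonneg (by positivity) (gauss_pos L _).le).2
    ⟨fun v => (hj v).summable, ?_⟩
  refine Summable.of_nonneg_of_le (fun v => tsum_nonneg fun j =>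
      mul_nonneg (by positivity) (gauss_pos L _).le)
    (fun v => ?_) (summable_dom h a r)
  rw [(hj v).tsum_eq]
  exact exp_norm_gauss_le L a r hr _

theorem hasSum_moments (h : Nᵀ * L = 1) (a : ι → ℂ) (s : ℂ) :
    HasSum (fun j => moments L a j / j ! * s ^ j) (∑' v : ι → ℤ, expGauss L a s (ofInt v)) := by
  set G : (ι → ℤ) × ℕ → ℂ := fun q =>
    s ^ q.2 / (q.2)! * ldot a (L *ᵥ ofInt q.1) ^ q.2 * (gauss L (ofInt q.1) : ℂ)
  have hG : Summable G := (summable_double h a (norm_nonneg s)).of_norm_bounded fun q =>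
    le_of_eq (by
    simp only [G, norm_mul, norm_div, norm_pow, norm_real, Complex.norm_natCast,
      Real.norm_of_nonneg (gauss_pos L _).le])
  have hv : ∀ v, HasSum (fun j => G (v, j)) (expGauss L a s (ofInt v)) := fun v => by
    refine HasSum.mul_right _ ?_
    rw [Complex.exp_eq_exp_ℂ]
    refine (NormedSpace.expSeries_div_hasSum_exp _).congr_fun fun j => ?_
    rw [mul_pow]
    ring
  have htot : HasSum G (∑' v : ι → ℤ, expGauss L a s (ofInt v)) := by
    rw [← tsum_congr fun v => (hv v).tsum_eq, ← hG.tsum_prod]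
    exact hG.hasSum
  have hswap := (Equiv.prodComm ℕ (ι → ℤ)).hasSum_iff.2 htot
  refine hswap.prod_fiberwise fun j => ?_
  have e : moments L a j / j ! * s ^ j = ∑' v : ι → ℤ, G (v, j) := by
    rw [moments, ← tsum_div_const, ← tsum_mul_right]
    exact tsum_congr fun v => by simp only [G]; ring
  rw [e]
  exact (hG.comp_injective (Prod.mk_left_injective j)).hasSum

/-- **Poisson summation for the powers.** -/
theorem moments_poisson (h : Nᵀ * L = 1) {a : ι → ℂ} (ha : ∑ i, a i ^ 2 = 0) (j : ℕ) :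
    moments L a j = ((|L.det|⁻¹ : ℝ) : ℂ) * (-I) ^ j * moments N a j := by
  have hN : Lᵀ * N = 1 := by
    have := congrArg Matrix.transpose h
    rwa [Matrix.transpose_mul, Matrix.transpose_transpose, Matrix.transpose_one] at this
  set D : ℂ := ((|L.det|⁻¹ : ℝ) : ℂ)
  set c : ℕ → ℂ := fun i => (moments L a i - D * (-I) ^ i * moments N a i) / i ! with hc
  have hsum : ∀ s : ℂ, HasSum (fun i => c i * s ^ i) 0 := fun s => by
    have e := (hasSum_moments h a s).sub ((hasSum_moments hN a (-I * s)).mul_left D)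
    rw [expGauss_poisson h ha s, sub_self] at e
    exact e.congr_fun fun i => by simp only [hc, mul_pow]; ring
  have hz := eq_zero_of_hasSum_pow (c := c) (by
    have := (hsum 1).summable.norm
    simpa using this) (fun s _ => hsum s) j
  rw [hc, div_eq_zero_iff, sub_eq_zero] at hz
  exact hz.resolve_right (Nat.cast_ne_zero.2 (Nat.factorial_ne_zero j))

end FA.HarmonicTheta

end
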