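import Fermat.Agent.HarmonicTheta.Form
import Fermat.Agent.SphereHecke.Twist
import Mathlib.LinearAlgebra.Vandermonde

/-!
# The entries of the symmetric powers are sums of powers of isotropic forms

The generating polynomial of the entries is the power of a linear form in the quaternion, isotropic
as the determinant is a quadratic form vanishing on matrices of rank one; evaluation at `j + 1`
points in each variable recovers every entry.
-/

set_option autoImplicit false
set_option linter.unusedSectionVars false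
set_option linter.style.haveILetI false

noncomputable section

open Quaternion Matrix
open scoped Quaternion
open FA.QuaternionJL

namespace FA.HarmonicTheta

/-- The span of the powers of isotropic forms. -/
def isoPow (j : ℕ) : Submodule ℂ (ℍ[ℚ] → ℂ) :=
  Submodule.span ℂ {F | ∃ a : Fin 4 → ℂ, ∑ i, a i ^ 2 = 0 ∧ F = fun x => ldot a (vecR x) ^ j}

/-- **The bound for every function in the span.** -/
theorem exists_isoPow_bound {j : ℕ} (h0 : 0 < j) {F : ℍ[ℚ] → ℂ} (hF : F ∈ isoPow j) :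
    ∃ C : ℝ, 0 ≤ C ∧ ∀ n : ℕ, 1 ≤ n → ‖∑ x ∈ normHz n, F x‖ ≤ C * majorant j n := by
  induction hF using Submodule.span_induction with
  | mem F hF =>
    obtain ⟨a, ha, rfl⟩ := hF
    obtain ⟨C, hC⟩ := exists_harmSum_bound j ha h0
    exact ⟨max C 0, le_max_right _ _, fun n hn => (hC n hn).trans
      (mul_le_mul_of_nonneg_right (le_max_left _ _) (majorant_nonneg j n))⟩
  | zero => exact ⟨0, le_rfl, fun n _ => by simp⟩
  | add F G _ _ hF hG =>
    obtain ⟨C, hC0, hC⟩ := hF
    obtain ⟨D, hD0, hD⟩ := hG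
    refine ⟨C + D, add_nonneg hC0 hD0, fun n hn => ?_⟩
    simp only [Pi.add_apply, Finset.sum_add_distrib, add_mul]
    exact (norm_add_le _ _).trans (add_le_add (hC n hn) (hD n hn))
  | smul c F _ hF =>
    obtain ⟨C, hC0, hC⟩ := hF
    refine ⟨‖c‖ * C, mul_nonneg (norm_nonneg _) hC0, fun n hn => ?_⟩
    simp only [Pi.smul_apply, smul_eq_mul, ← Finset.mul_sum, norm_mul, mul_assoc]
    exact mul_le_mul_of_nonneg_left (hC n hn) (norm_nonneg _)

/-- The matrix of the evaluations at `0, …, j`. -/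
def evalMat (j : ℕ) : Matrix (Fin (j + 1)) (Fin (j + 1)) ℂ :=
  Matrix.vandermonde fun i : Fin (j + 1) => ((i : ℕ) : ℂ)

theorem coeff_of_eval (j : ℕ) (b : Fin (j + 1) → ℂ) (k : Fin (j + 1)) :
    b k = ∑ i, (evalMat j)⁻¹ k i * ∑ l, b l * ((i : ℕ) : ℂ) ^ (l : ℕ) := by
  have hV : IsUnit (evalMat j).det := isUnit_iff_ne_zero.2
    (Matrix.det_vandermonde_ne_zero_iff.2 fun i l h => Fin.val_injective (Nat.cast_injective h))
  have h := congrFun (show (evalMat j)⁻¹ *ᵥ (evalMat j *ᵥ b) = b by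
    rw [Matrix.mulVec_mulVec, Matrix.nonsing_inv_mul _ hV, Matrix.one_mulVec]) k
  rw [← h]
  simp only [Matrix.mulVec, dotProduct, evalMat, Matrix.vandermonde_apply, mul_comm (b _)]

/-- The isotropic form of two vectors. -/
def pairForm (M : Matrix (Fin 2) (Fin 2) ℂ) (z w : ℂ) : Fin 4 → ℂ :=
  let v0 := M 0 0 * z + M 0 1
  let v1 := M 1 0 * z + M 1 1
  ![w * v0 + v1, (w * v0 - v1) * Complex.I, w * v1 - v0, (w * v1 + v0) * Complex.I]

theorem pairForm_sq (M : Matrix (Fin 2) (Fin 2) ℂ) (z w : ℂ) : ∑ i, pairForm M z w i ^ 2 = 0 := by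
  rw [Fin.sum_univ_four]
  simp [pairForm]
  linear_combination ((w * (M 0 0 * z + M 0 1) - (M 1 0 * z + M 1 1)) ^ 2 +
    (w * (M 1 0 * z + M 1 1) + (M 0 0 * z + M 0 1)) ^ 2) * Complex.I_sq

theorem generating (j : ℕ) (M : Matrix (Fin 2) (Fin 2) ℂ) (x : ℍ[ℚ]) (z w : ℂ) :
    ∑ k : Fin (j + 1), (∑ l : Fin (j + 1),
        (j.choose k : ℂ) * symMat j (toMat x * M) k l * z ^ (l : ℕ)) * w ^ (k : ℕ) =
      ldot (pairForm M z w) (vecR x) ^ j := by
  set g := toMat x * M with hg
  have e : ldot (pairForm M z w) (vecR x) =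
      w * (g 0 0 * z + g 0 1) + (g 1 0 * z + g 1 1) := by
    simp [hg, ldot, pairForm, vecR, toMat, Fin.sum_univ_four, Fin.sum_univ_two,
      Matrix.vecMul, dotProduct]
    ring
  rw [e, ← SphereHecke.sum_choose]
  refine Finset.sum_congr rfl fun k _ => ?_
  simp only [mul_assoc, ← Finset.mul_sum]
  rw [sum_symMat, mul_pow]
  ring

/-- **Every entry is in the span.** -/
theorem entry_mem (j : ℕ) (M : Matrix (Fin 2) (Fin 2) ℂ) (k l : Fin (j + 1)) :
    (fun x => symMat j (toMat x * M) k l) ∈ isoPow j := by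
  have hc : (j.choose k : ℂ) ≠ 0 :=
    Nat.cast_ne_zero.2 (Nat.choose_pos (Nat.le_of_lt_succ k.2)).ne'
  have e : (fun x => symMat j (toMat x * M) k l) = ∑ i : Fin (j + 1), ∑ i' : Fin (j + 1),
      ((j.choose k : ℂ)⁻¹ * (evalMat j)⁻¹ l i' * (evalMat j)⁻¹ k i) •
        fun x => ldot (pairForm M ((i' : ℕ) : ℂ) ((i : ℕ) : ℂ)) (vecR x) ^ j := by
    funext x
    simp only [Finset.sum_apply, Pi.smul_apply, smul_eq_mul, ← generating]
    set B : Fin (j + 1) → Fin (j + 1) → ℂ := fun i' k' => ∑ l' : Fin (j + 1),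
      (j.choose k' : ℂ) * symMat j (toMat x * M) k' l' * ((i' : ℕ) : ℂ) ^ (l' : ℕ) with hB
    have h1 := coeff_of_eval j (fun l' => (j.choose k : ℂ) * symMat j (toMat x * M) k l') l
    have h2 : ∀ i', B i' k =
        ∑ i : Fin (j + 1), (evalMat j)⁻¹ k i * ∑ k', B i' k' * ((i : ℕ) : ℂ) ^ (k' : ℕ) :=
      fun i' => coeff_of_eval j (B i') k
    calc symMat j (toMat x * M) k l
        = (j.choose k : ℂ)⁻¹ * ∑ i', (evalMat j)⁻¹ l i' * B i' k := by
          rw [hB, ← h1, inv_mul_cancel_left₀ hc]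
      _ = _ := by
          simp only [h2]
          rw [Finset.mul_sum]
          conv_rhs => rw [Finset.sum_comm]
          refine Finset.sum_congr rfl fun i' _ => ?_
          rw [Finset.mul_sum, Finset.mul_sum]
          exact Finset.sum_congr rfl fun i _ => by ring
  rw [e]
  exact Submodule.sum_mem _ fun i _ => Submodule.sum_mem _ fun i' _ =>
    Submodule.smul_mem _ _ (Submodule.subset_span ⟨_, pairForm_sq _ _ _, rfl⟩)

theorem trace_mem (j : ℕ) (M : Matrix (Fin 2) (Fin 2) ℂ) :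
    (fun x => (symMat j (toMat x * M)).trace) ∈ isoPow j := by
  rw [show (fun x => (symMat j (toMat x * M)).trace) =
    ∑ k : Fin (j + 1), fun x => symMat j (toMat x * M) k k from funext fun x => by
      simp [Matrix.trace, Finset.sum_apply]]
  exact Submodule.sum_mem _ fun k _ => entry_mem j M k k

end FA.HarmonicTheta

end
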