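import Fermat.Agent.HarmonicTheta.Polarization
import Fermat.Agent.SphereHecke.FourSquares
import Mathlib.Analysis.SpecialFunctions.Pow.Asymptotics

/-!
# Equidistribution for every sequence of odd norms

The mean of the Chebyshev polynomial of a coordinate over the elements of odd norm `n` is
`O (n ^ (-1/4) (1 + log n) ^ 6)`, so every coordinate becomes semicircle distributed and the points
equidistributed; doubling by `1 + i` carries this to sums of four squares.
-/

set_option autoImplicit false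
set_option linter.unusedSectionVars false
set_option linter.style.haveILetI false

noncomputable section

open Filter Matrix MeasureTheory Metric Quaternion
open scoped Topology Quaternion RealInnerProductSpace
open FA.QuaternionJL FA.QuaternionJLSystems
open FA.SphereHecke (R4 vec4 spherePoint dirMat meanOn squaresPoint sphereLaw)
open FA.QuaternionTrace (chebyU chebyU_zero chebyU_one chebyU_add_two)
open FA.VerticalSatoTate (moment moment_zero moment_succ semiMean tendsto_of_moments)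

namespace FA.HarmonicTheta

theorem card_normHz_odd {n : ℕ} (hn : Odd n) : 24 * n ≤ (normHz n).card := by
  rw [card_normHz, FA.HurwitzQ.card_fours_four_odd hn, ArithmeticFunction.sigma_one_apply]
  exact Nat.mul_le_mul_left 24 (Finset.single_le_sum (f := fun d => d)
    (fun d _ => Nat.zero_le d) (Nat.mem_divisors.2 ⟨dvd_rfl, hn.pos.ne'⟩))

/-- The rate `n ^ (-1/4) (1 + log n) ^ 6`. -/
def rate (n : ℕ) : ℝ := (n : ℝ) ^ (-(1 / 4) : ℝ) * (1 + Real.log n) ^ 6

theorem rate_nonneg (n : ℕ) : 0 ≤ rate n :=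
  mul_nonneg (Real.rpow_nonneg (Nat.cast_nonneg n) _)
    (pow_nonneg (add_nonneg zero_le_one (Real.log_natCast_nonneg n)) 6)

theorem tendsto_rate : Tendsto rate atTop (𝓝 0) := by
  have hg : Tendsto (fun n : ℕ => (49 : ℝ) ^ 6 * (n : ℝ) ^ (-(1 / 8) : ℝ)) atTop (𝓝 0) := by
    have := (tendsto_rpow_neg_atTop (by norm_num : (0 : ℝ) < 1 / 8)).comp
      (tendsto_natCast_atTop_atTop (R := ℝ))
    simpa using this.const_mul ((49 : ℝ) ^ 6)
  refine squeeze_zero' (Eventually.of_forall rate_nonneg) ?_ hg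
  filter_upwards [eventually_ge_atTop 1] with n hn
  have hn1 : (1 : ℝ) ≤ n := by exact_mod_cast hn
  have hl : 1 + Real.log n ≤ 49 * (n : ℝ) ^ (1 / 48 : ℝ) := by
    have h1 := Real.log_le_rpow_div (Nat.cast_nonneg n) (by norm_num : (0 : ℝ) < 1 / 48)
    have h2 : (1 : ℝ) ≤ (n : ℝ) ^ (1 / 48 : ℝ) := Real.one_le_rpow hn1 (by norm_num)
    linarith
  refine (mul_le_mul_of_nonneg_left (pow_le_pow_left₀
    (add_nonneg zero_le_one (Real.log_natCast_nonneg n)) hl 6)
    (Real.rpow_nonneg (Nat.cast_nonneg n) _)).trans (le_of_eq ?_)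
  rw [mul_pow, ← Real.rpow_natCast ((n : ℝ) ^ (1 / 48 : ℝ)) 6,
    ← Real.rpow_mul (Nat.cast_nonneg n), mul_left_comm, ← Real.rpow_add (by linarith)]
  norm_num

theorem majorant_eq {j n : ℕ} (hn : 1 ≤ n) :
    majorant j n = Real.sqrt n ^ j * (n : ℝ) * rate n := by
  have h0 : (0 : ℝ) < n := by exact_mod_cast hn
  rw [majorant, rate, ← mul_assoc, Real.sqrt_eq_rpow, ← Real.rpow_natCast ((n : ℝ) ^ (1 / 2 : ℝ)) j,
    ← Real.rpow_mul h0.le]
  congr 1
  nth_rw 3 [← Real.rpow_one (n : ℝ)]
  rw [← Real.rpow_add h0, ← Real.rpow_add h0, expo]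
  ring_nf

/-- **The rate for one coordinate.** -/
theorem exists_mean_bound {j : ℕ} (hj : 0 < j) {g : R4} (hg : ‖g‖ = 1) :
    ∃ C : ℝ, 0 ≤ C ∧ ∀ n : ℕ, Odd n →
      |meanOn (normHz n) fun x => chebyU j (2 * ⟪spherePoint n x, g⟫)| ≤ C * rate n := by
  obtain ⟨C, hC0, hC⟩ := exists_isoPow_bound hj (trace_mem j (dirMat g))
  refine ⟨C, hC0, fun n hn => ?_⟩
  have h0 : (0 : ℝ) < n := by exact_mod_cast hn.pos
  set s := Real.sqrt (n : ℝ)
  have hs : 0 < s := Real.sqrt_pos.2 h0
  set U := ∑ x ∈ normHz n, chebyU j (2 * ⟪spherePoint n x, g⟫)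
  have hx : ∀ x ∈ normHz n, (symMat j (toMat x * dirMat g)).trace =
      ((s ^ j * chebyU j (2 * ⟪spherePoint n x, g⟫) : ℝ) : ℂ) := fun x hx => by
    refine SphereHecke.trace_symMat_cheby j ?_ ?_ hs.ne'
    · rw [SphereHecke.trace_toMat_dirMat, spherePoint, real_inner_smul_left]
      congr 1
      simp only [s]
      field_simp
    · rw [det_mul, SphereHecke.det_dirMat hg, mul_one, det_toMat, (mem_normHz.1 hx).2,
        Real.sq_sqrt (Nat.cast_nonneg _)]
      push_cast
      rfl
  have h := hC n hn.pos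
  rw [Finset.sum_congr rfl hx, ← Complex.ofReal_sum, ← Finset.mul_sum, Complex.norm_real,
    Real.norm_eq_abs, abs_mul, abs_of_pos (pow_pos hs j), majorant_eq hn.pos] at h
  have hcard : (n : ℝ) ≤ ((normHz n).card : ℝ) := by
    have : n ≤ (normHz n).card := le_trans (by omega) (card_normHz_odd hn)
    exact_mod_cast this
  rw [meanOn, abs_div, Nat.abs_cast, div_le_iff₀ (h0.trans_le hcard)]
  have h' : |U| ≤ C * rate n * n := le_of_mul_le_mul_left (h.trans (le_of_eq (by ring)))
    (pow_pos hs j)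
  exact h'.trans (mul_le_mul_of_nonneg_left hcard (mul_nonneg hC0 (rate_nonneg n)))

variable {N : ℕ → ℕ} (hN : ∀ r, Odd (N r)) (hlim : Tendsto N atTop atTop)
include hN hlim

theorem tendsto_mean_moment {g : R4} (hg : ‖g‖ = 1) :
    ∀ n i : ℕ, Tendsto (fun r => meanOn (normHz (N r)) fun x =>
      (2 * ⟪spherePoint (N r) x, g⟫) ^ n * chebyU i (2 * ⟪spherePoint (N r) x, g⟫))
      atTop (𝓝 (moment n i)) := by
  intro n
  induction n with
  | zero =>
    intro i
    simp only [pow_zero, one_mul, moment_zero]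
    rcases Nat.eq_zero_or_pos i with rfl | hi
    · rw [if_pos rfl]
      refine (tendsto_const_nhds (x := (1 : ℝ))).congr fun r => ?_
      simp only [meanOn, chebyU_zero, Finset.sum_const, nsmul_eq_mul, mul_one]
      rw [div_self]
      refine Nat.cast_ne_zero.2 ?_
      have := card_normHz_odd (hN r)
      have := (hN r).pos
      omega
    · rw [if_neg hi.ne']
      obtain ⟨C, -, hC⟩ := exists_mean_bound hi hg
      have h := (tendsto_rate.comp hlim).const_mul C
      rw [mul_zero] at h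
      exact squeeze_zero_norm (fun r => hC _ (hN r)) h
  | succ n ih =>
    intro i
    rw [moment_succ]
    match i with
    | 0 =>
      rw [if_pos rfl, add_zero]
      refine (ih 1).congr fun r => SphereHecke.meanOn_congr fun x _ => ?_
      rw [chebyU_one, chebyU_zero, pow_succ, mul_one]
    | l + 1 =>
      rw [if_neg l.succ_ne_zero, Nat.add_sub_cancel]
      refine ((ih (l + 2)).add (ih l)).congr fun r => ?_
      rw [← SphereHecke.meanOn_add]
      refine SphereHecke.meanOn_congr fun x _ => ?_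
      rw [chebyU_add_two, pow_succ]
      ring

theorem tendsto_marginal {g : R4} (hg : ‖g‖ = 1) {φ : ℝ → ℝ} (hφ : Continuous φ) :
    Tendsto (fun r => meanOn (normHz (N r)) fun x => φ ⟪spherePoint (N r) x, g⟫) atTop
      (𝓝 (semiMean fun t => φ (t / 2))) := by
  set χ : ℝ → ℝ := fun t => φ (max (-2) (min 2 t) / 2)
  have hχ : Continuous χ := hφ.comp (by fun_prop)
  obtain ⟨B, hB⟩ := (isCompact_Icc (a := (-1 : ℝ)) (b := 1)).exists_bound_of_continuousOn
    hφ.continuousOn
  have hχB : ∀ t, |χ t| ≤ B := fun t => hB _ (by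
    have h1 := le_max_left (-2 : ℝ) (min 2 t)
    have h2 : max (-2 : ℝ) (min 2 t) ≤ 2 := max_le (by norm_num) (min_le_left _ _)
    constructor <;> linarith)
  have h := tendsto_of_moments (ι := fun r => normHz (N r))
    (fun r _ => ((normHz (N r)).card : ℝ)⁻¹) (fun r x => 2 * ⟪spherePoint (N r) x, g⟫)
    (Eventually.of_forall fun r _ => by positivity) (fun n => by
      refine (tendsto_mean_moment hN hlim hg n 0).congr fun r => ?_
      simp only [chebyU_zero, mul_one, meanOn, div_eq_inv_mul, Finset.mul_sum]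
      exact (Finset.sum_coe_sort (normHz (N r)) fun x =>
        ((normHz (N r)).card : ℝ)⁻¹ * (2 * ⟪spherePoint (N r) x, g⟫) ^ n).symm) hχ hχB
  have hsemi : semiMean χ = semiMean fun t => φ (t / 2) :=
    FA.QuaternionTrace.semiMean_congr fun t ht => by
      simp only [χ, min_eq_right ht.2, max_eq_right ht.1]
  rw [hsemi] at h
  refine h.congr fun r => ?_
  rw [meanOn, div_eq_inv_mul, Finset.mul_sum, ← Finset.sum_coe_sort (normHz (N r))]
  refine Finset.sum_congr rfl fun x _ => ?_
  have hb := abs_real_inner_le_norm (spherePoint (N r) x) g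
  rw [SphereHecke.norm_spherePoint (hN r).pos.ne' x.2, hg, one_mul, abs_le] at hb
  simp only [χ]
  rw [min_eq_right (by linarith [hb.2]), max_eq_right (by linarith [hb.1])]
  congr 2
  ring

/-- **Quaternions of odd norms.** -/
theorem tendsto_quaternions {φ : R4 → ℝ} (hφ : Continuous φ) :
    Tendsto (fun r => meanOn (normHz (N r)) fun x => φ (spherePoint (N r) x)) atTop
      (𝓝 (⨍ u in ball (0 : R4) 1, φ (‖u‖⁻¹ • u))) := by
  rw [← SphereHecke.integral_eq_average hφ]
  refine SphereHecke.tendsto_sphere (y := fun r => spherePoint (N r)) (fun r => ?_)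
    (fun r x hx => SphereHecke.norm_spherePoint (hN r).pos.ne' hx)
    (fun e he ψ hψ => tendsto_marginal hN hlim he hψ) hφ
  rw [← Finset.card_pos]
  have := card_normHz_odd (hN r)
  have := (hN r).pos
  omega

/-- **Representations of `4 n`.** -/
theorem tendsto_fourSquares {φ : R4 → ℝ} (hφ : Continuous φ) :
    Tendsto (fun r => meanOn (FA.HurwitzQ.fours (4 * N r)) fun v => φ (squaresPoint (N r) v))
      atTop (𝓝 (⨍ u in ball (0 : R4) 1, φ (‖u‖⁻¹ • u))) := by
  refine (tendsto_quaternions hN hlim hφ).congr fun r => ?_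
  rw [meanOn, meanOn, SphereHecke.sum_normHz_fours, card_normHz]
  simp only [SphereHecke.spherePoint_toQ]

omit hN hlim

/-- Multiplication by `(1 + i) / √2`. -/
def turn : R4 →ₗ[ℝ] R4 where
  toFun y := (√2)⁻¹ • WithLp.toLp 2 ![y 0 - y 1, y 0 + y 1, y 2 - y 3, y 2 + y 3]
  map_add' y z := by
    refine WithLp.ofLp_injective 2 (funext fun i => ?_)
    fin_cases i <;> simp <;> ring
  map_smul' c y := by
    refine WithLp.ofLp_injective 2 (funext fun i => ?_)
    fin_cases i <;> simp <;> ring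

theorem norm_turn (y : R4) : ‖turn y‖ = ‖y‖ := by
  refine (sq_eq_sq₀ (norm_nonneg _) (norm_nonneg _)).1 ?_
  rw [← real_inner_self_eq_norm_sq, ← real_inner_self_eq_norm_sq, SphereHecke.inner_four,
    SphereHecke.inner_four]
  simp [turn]
  field_simp
  rw [Real.sq_sqrt zero_le_two]
  ring

/-- The same as an isometry of the space. -/
def turnEquiv : R4 ≃ₗᵢ[ℝ] R4 :=
  LinearIsometry.toLinearIsometryEquiv ⟨turn, norm_turn⟩ rfl

/-- The point of a representation of `2 n`. -/
def doublePoint (n : ℕ) (v : ℤ × ℤ × ℤ × ℤ) : R4 :=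
  (Real.sqrt ((2 * n : ℕ) : ℝ))⁻¹ •
    WithLp.toLp 2 ![(v.1 : ℝ), (v.2.1 : ℝ), (v.2.2.1 : ℝ), (v.2.2.2 : ℝ)]

theorem sum_fours_double {M : Type*} [AddCommMonoid M] (n : ℕ) (F : R4 → M) :
    ∑ v ∈ FA.HurwitzQ.fours (2 * n), F (doublePoint n v) =
      ∑ x ∈ normHz n, F (turnEquiv (spherePoint n x)) := by
  rw [normHz, Finset.sum_map]
  refine Finset.sum_nbij'
    (fun v => ⟨v.1 + v.2.1, v.2.1 - v.1, v.2.2.1 + v.2.2.2, v.2.2.2 - v.2.2.1⟩)
    (fun p => ((p.1 - p.2.1) / 2, (p.1 + p.2.1) / 2, (p.2.2.1 - p.2.2.2) / 2,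
      (p.2.2.1 + p.2.2.2) / 2)) (fun v hv => ?_) (fun p hp => ?_) (fun v _ => ?_)
    (fun p hp => ?_) fun v _ => ?_
  · rw [FA.HurwitzQ.mem_fours] at hv
    rw [mem_normPts, sqNorm]
    push_cast at hv ⊢
    linear_combination 2 * hv
  · rw [mem_normPts] at hp
    have h := (toQ_mem_iff p).1 (parity_of_norm hp)
    rw [sqNorm] at hp
    rw [FA.HurwitzQ.mem_fours]
    obtain ⟨a, ha⟩ : (2 : ℤ) ∣ p.1 - p.2.1 := by omega
    obtain ⟨b, hb⟩ : (2 : ℤ) ∣ p.1 + p.2.1 := by omega
    obtain ⟨c, hc⟩ : (2 : ℤ) ∣ p.2.2.1 - p.2.2.2 := by omega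
    obtain ⟨d, hd⟩ : (2 : ℤ) ∣ p.2.2.1 + p.2.2.2 := by omega
    simp only [ha, hb, hc, hd, Int.mul_ediv_cancel_left _ (two_ne_zero' ℤ)]
    push_cast
    rw [show p.1 = a + b by linarith, show p.2.1 = b - a by linarith,
      show p.2.2.1 = c + d by linarith, show p.2.2.2 = d - c by linarith] at hp
    ring_nf at hp ⊢
    linarith
  · obtain ⟨a, b, c, d⟩ := v
    simp only [Prod.mk.injEq]
    refine ⟨?_, ?_, ?_, ?_⟩ <;> omega
  · have h := (toQ_mem_iff p).1 (parity_of_norm (mem_normPts.1 hp))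
    obtain ⟨t, x, y, z⟩ := p
    simp only [Sigma.mk.injEq, heq_eq_eq, Prod.mk.injEq] at h ⊢
    refine ⟨?_, ?_, ?_, ?_⟩ <;> omega
  · congr 1
    refine WithLp.ofLp_injective 2 (funext fun i => ?_)
    have hs : Real.sqrt ((2 * n : ℕ) : ℝ) = √2 * √(n : ℝ) := by
      push_cast
      rw [Real.sqrt_mul zero_le_two]
    simp only [doublePoint, hs]
    fin_cases i <;> simp [turnEquiv, turn, spherePoint, vec4, toQ] <;> ring

include hN hlim in
/-- **Representations of `2 n`.** -/
theorem tendsto_doubleSquares {φ : R4 → ℝ} (hφ : Continuous φ) :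
    Tendsto (fun r => meanOn (FA.HurwitzQ.fours (2 * N r)) fun v => φ (doublePoint (N r) v))
      atTop (𝓝 (⨍ u in ball (0 : R4) 1, φ (‖u‖⁻¹ • u))) := by
  have h := tendsto_quaternions hN hlim (φ := fun y => φ (turnEquiv y))
    (hφ.comp turnEquiv.continuous)
  rw [← SphereHecke.integral_eq_average (φ := fun y => φ (turnEquiv y))
    (hφ.comp turnEquiv.continuous), SphereHecke.integral_comp_isometry turnEquiv hφ,
    SphereHecke.integral_eq_average hφ] at h
  refine h.congr fun r => ?_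
  have hc := sum_fours_double (N r) (fun _ => (1 : ℕ))
  simp only [Finset.sum_const, smul_eq_mul, mul_one] at hc
  rw [meanOn, meanOn, sum_fours_double (N r) φ, hc]

end FA.HarmonicTheta

end
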